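/-
S56 / Units / LADefs.   Statements FROZEN (owner helper73).
-/
import Mathlib

set_option autoImplicit false

noncomputable section

namespace Fermat.Agent.S56.Units

open Module Polynomial Function

/-- `r : A → W` identifies `W` with `A/pA`. -/
structure IsRed (p : ℕ) {A W : Type} [AddCommGroup A] [AddCommGroup W] (r : A →+ W) : Prop where
  surj : Surjective r
  ker : ∀ a, r a = 0 ↔ ∃ b, a = p • b

/-- the operator `f ↦ f ∘ π⁻¹` on `T → R`. -/
def permOp (R : Type) [CommRing R] {T : Type} (π : Equiv.Perm T) : Module.End R (T → R) :=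
  LinearMap.funLeft R R π.symm

@[simp] lemma permOp_apply (R : Type) [CommRing R] {T : Type} (π : Equiv.Perm T) (f : T → R)
    (t : T) : permOp R π f t = f (π.symm t) := rfl

end Fermat.Agent.S56.Units

end
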