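/-
S56 / Units / Defs : the action of a field automorphism `σ` of a number field `L` on
`L^×/p`, on the finite and infinite places, on subgroups of `L^×`.
Definitions only, sorry-free, FROZEN (owner helper73).
-/
import Fermat.Agent.S56.Units.LADefs
import Fermat.Agent.S55.B.Count

set_option autoImplicit false
set_option linter.unusedSectionVars false
set_option linter.unusedVariables false

noncomputable section

namespace Fermat.Agent.S56.Units

open Module Polynomial Function IsDedekindDomain NumberField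
open Fermat.Agent.S55 Fermat.Agent.S55.G Fermat.Agent.S55.B

variable {L : Type} [Field L] [NumberField L]

/-- `σ` on `L^×`. -/
def sigU (σ : L ≃ₐ[ℚ] L) : Lˣ →* Lˣ := Units.map (σ : L →* L)

@[simp] lemma coe_sigU (σ : L ≃ₐ[ℚ] L) (x : Lˣ) : ((sigU σ x : Lˣ) : L) = σ (x : L) := rfl

/-- `σ` on `L^×/p`. -/
def sigKP (p : ℕ) (σ : L ≃ₐ[ℚ] L) : KP p L →ₗ[ZMod p] KP p L :=
  AddMonoidHom.toZModLinearMap p
    (show KP p L →+ KP p L from MonoidHom.toAdditive
      (QuotientGroup.map (powMonoidHom p : Lˣ →* Lˣ).range (powMonoidHom p : Lˣ →* Lˣ).range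
        (sigU σ) (by rintro _ ⟨x, rfl⟩; exact ⟨sigU σ x, by simp⟩)))

@[simp] theorem sigKP_cls (p : ℕ) (σ : L ≃ₐ[ℚ] L) (x : Lˣ) :
    sigKP p σ (cls p x) = cls p (sigU σ x) := rfl

/-- `σ` on the ring of integers. -/
def sigInt (σ : L ≃ₐ[ℚ] L) : 𝓞 L ≃+* 𝓞 L := RingOfIntegers.mapRingEquiv (σ : L ≃+* L)

@[simp] lemma coe_sigInt (σ : L ≃ₐ[ℚ] L) (x : 𝓞 L) : ((sigInt σ x : 𝓞 L) : L) = σ (x : L) := rfl

/-- `σ` on the finite places: `σ v = σ(𝔭_v)`. -/
def sigPl (σ : L ≃ₐ[ℚ] L) : Equiv.Perm (Pl L) := HeightOneSpectrum.equivOfRingEquiv (sigInt σ)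

/-- `σ` on a stable set of finite places. -/
def plPerm (σ : L ≃ₐ[ℚ] L) (T : Set (Pl L)) (hT : ∀ v, sigPl σ v ∈ T ↔ v ∈ T) : Equiv.Perm T :=
  (sigPl σ).subtypePerm hT

@[simp] lemma coe_plPerm (σ : L ≃ₐ[ℚ] L) (T : Set (Pl L)) (hT : ∀ v, sigPl σ v ∈ T ↔ v ∈ T)
    (v : T) : ((plPerm σ T hT v : T) : Pl L) = sigPl σ v := rfl

/-- `σ` on the infinite places: `(σ w)(x) = w (σ⁻¹ x)`. -/
def infPerm (σ : L ≃ₐ[ℚ] L) : Equiv.Perm (InfinitePlace L) := MulAction.toPerm σ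

lemma infPerm_apply (σ : L ≃ₐ[ℚ] L) (w : InfinitePlace L) (x : L) :
    infPerm σ w (σ x) = w x := by
  change (σ • w) (σ x) = w x
  rw [InfinitePlace.smul_apply, AlgEquiv.symm_apply_apply]

/-! ### subgroups of `L^×` -/

/-- the reduction map `H → img p H ≅ H/H^p` (for `p`-saturated `H`). -/
def redImg (p : ℕ) (H : Subgroup Lˣ) : Additive H →+ img p H where
  toFun x := ⟨cls p ((Additive.toMul x : H) : Lˣ), (mem_img p).2 ⟨_, (Additive.toMul x : H).2, rfl⟩⟩
  map_zero' := Subtype.ext (cls_one p)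
  map_add' x y := Subtype.ext (cls_mul p _ _)

@[simp] lemma coe_redImg (p : ℕ) (H : Subgroup Lˣ) (x : Additive H) :
    ((redImg p H x : img p H) : KP p L) = cls p ((Additive.toMul x : H) : Lˣ) := rfl

/-- `σ` on a stable subgroup, additively. -/
def sigH (σ : L ≃ₐ[ℚ] L) (H : Subgroup Lˣ) (hst : ∀ x ∈ H, sigU σ x ∈ H) :
    Additive H →+ Additive H :=
  MonoidHom.toAdditive (((sigU σ).comp H.subtype).codRestrict H (fun x => hst x x.2))

@[simp] lemma coe_sigH (σ : L ≃ₐ[ℚ] L) (H : Subgroup Lˣ) (hst : ∀ x ∈ H, sigU σ x ∈ H)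
    (x : Additive H) :
    ((Additive.toMul (sigH σ H hst x) : H) : Lˣ) = sigU σ ((Additive.toMul x : H) : Lˣ) := rfl

/-- inclusion of subgroups, additively. -/
def incH {H H' : Subgroup Lˣ} (h : H ≤ H') : Additive H →+ Additive H' :=
  MonoidHom.toAdditive (Subgroup.inclusion h)

@[simp] lemma coe_incH {H H' : Subgroup Lˣ} (h : H ≤ H') (x : Additive H) :
    ((Additive.toMul (incH h x) : H') : Lˣ) = ((Additive.toMul x : H) : Lˣ) := rfl

/-- `img p H` is stable under `σ`. -/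
lemma sigKP_mem_img (p : ℕ) (σ : L ≃ₐ[ℚ] L) (H : Subgroup Lˣ) (hst : ∀ x ∈ H, sigU σ x ∈ H) :
    ∀ ξ ∈ img p H, sigKP p σ ξ ∈ img p H := by
  intro ξ hξ
  obtain ⟨x, hx, rfl⟩ := (mem_img p).1 hξ
  exact (mem_img p).2 ⟨_, hst x hx, rfl⟩

/-- `σ` on `img p H`. -/
def sigImg (p : ℕ) (σ : L ≃ₐ[ℚ] L) (H : Subgroup Lˣ) (hst : ∀ x ∈ H, sigU σ x ∈ H) :
    Module.End (ZMod p) (img p H) :=
  (sigKP p σ).restrict (sigKP_mem_img p σ H hst)

lemma redImg_sigH (p : ℕ) (σ : L ≃ₐ[ℚ] L) (H : Subgroup Lˣ) (hst : ∀ x ∈ H, sigU σ x ∈ H)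
    (x : Additive H) : redImg p H (sigH σ H hst x) = sigImg p σ H hst (redImg p H x) := rfl

/-- the roots of unity of `L`. -/
def torL (L : Type) [Field L] : Subgroup Lˣ := CommGroup.torsion Lˣ

/-- the divisor map on the `T`-units. -/
def ordT (T : Set (Pl L)) : Additive (T.unit L) →+ (T → ℤ) where
  toFun x := fun v => ordZ v.1 ((Additive.toMul x : T.unit L) : Lˣ)
  map_zero' := by
    funext v
    simp [ordZ]
  map_add' x y := by
    funext v
    simp [ordZ, add_comm]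

@[simp] lemma ordT_apply (T : Set (Pl L)) (x : Additive (T.unit L)) (v : T) :
    ordT T x v = ordZ v.1 ((Additive.toMul x : T.unit L) : Lˣ) := rfl

/-- the full logarithmic vector of `x ∈ L^×`. -/
def logL (L : Type) [Field L] [NumberField L] : Additive Lˣ →+ (InfinitePlace L → ℝ) where
  toFun x := fun w => (w.mult : ℝ) * Real.log (w ((Additive.toMul x : Lˣ) : L))
  map_zero' := by
    funext w
    simp
  map_add' x y := by
    funext w
    have hx : w ((Additive.toMul x : Lˣ) : L) ≠ 0 := by simp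
    have hy : w ((Additive.toMul y : Lˣ) : L) ≠ 0 := by simp
    simp only [toMul_add, Units.val_mul, map_mul, Pi.add_apply]
    rw [Real.log_mul hx hy, mul_add]

@[simp] lemma logL_apply (x : Additive Lˣ) (w : InfinitePlace L) :
    logL L x w = (w.mult : ℝ) * Real.log (w ((Additive.toMul x : Lˣ) : L)) := rfl

/-- the hyperplane `∑ = 0`. -/
def Hyp (L : Type) [Field L] [NumberField L] : Submodule ℝ (InfinitePlace L → ℝ) :=
  LinearMap.ker (∑ w, LinearMap.proj w : (InfinitePlace L → ℝ) →ₗ[ℝ] ℝ)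

lemma mem_Hyp (f : InfinitePlace L → ℝ) : f ∈ Hyp L ↔ ∑ w, f w = 0 := by
  simp [Hyp, LinearMap.mem_ker, LinearMap.sum_apply]

end Fermat.Agent.S56.Units

end
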