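/-
S56 / Units / BRDefs : right multiplication on double cosets `D \ G / N`.  sorry-free, FROZEN (owner helper73).
-/
import Fermat.Agent.S56.Units.Defs
import Fermat.Agent.S56.Euler.Defs

set_option autoImplicit false
set_option linter.unusedSectionVars false

noncomputable section

namespace Fermat.Agent.S56.Units

open Module Polynomial Function IsDedekindDomain NumberField
open Fermat.Agent.S55 Fermat.Agent.S55.G Fermat.Agent.S55.B Fermat.Agent.S55.Places ExtCitation

section
variable {G : Type} [Group G]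

/-- `D \ G / N`. -/
abbrev Om (N D : Subgroup G) : Type := MulAction.orbitRel.Quotient D (G ⧸ N)

/-- `[w] ↦ [w t]` on `D \ G / N` (`N` normal). -/
def rtOmFun (N : Subgroup G) [N.Normal] (D : Subgroup G) (t : G) : Om N D → Om N D :=
  Quotient.map' (fun w : G ⧸ N => w * (t : G ⧸ N)) (by
    rintro w w' ⟨d, rfl⟩
    exact ⟨d, Euler.smul_mul_coe N (d : G) t w'⟩)

lemma rtOmFun_mk (N : Subgroup G) [N.Normal] (D : Subgroup G) (t : G) (w : G ⧸ N) :
    rtOmFun N D t (Quotient.mk'' w) = Quotient.mk'' (w * (t : G ⧸ N)) := rfl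

/-- right multiplication by `t` as a permutation of `D \ G / N`. -/
def rtOm (N : Subgroup G) [N.Normal] (D : Subgroup G) (t : G) : Equiv.Perm (Om N D) where
  toFun := rtOmFun N D t
  invFun := rtOmFun N D t⁻¹
  left_inv c := by
    induction c using Quotient.inductionOn' with
    | h w => rw [rtOmFun_mk, rtOmFun_mk, mul_assoc, ← QuotientGroup.mk_mul, mul_inv_cancel,
        QuotientGroup.mk_one, mul_one]
  right_inv c := by
    induction c using Quotient.inductionOn' with
    | h w => rw [rtOmFun_mk, rtOmFun_mk, mul_assoc, ← QuotientGroup.mk_mul, inv_mul_cancel,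
        QuotientGroup.mk_one, mul_one]

@[simp] lemma rtOm_mk (N : Subgroup G) [N.Normal] (D : Subgroup G) (t : G) (w : G ⧸ N) :
    rtOm N D t (Quotient.mk'' w) = Quotient.mk'' (w * (t : G ⧸ N)) := rfl

lemma rtOm_symm (N : Subgroup G) [N.Normal] (D : Subgroup G) (t : G) :
    (rtOm N D t).symm = rtOm N D t⁻¹ := by
  ext c
  induction c using Quotient.inductionOn' with
  | h w => rfl

end

/-- `R_g` on the `D`-invariant functions on `GQ/N` (= `Euler.permOp` of `Euler/UnitsTarget.lean`, same body). -/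
abbrev permE (p : ℕ) [Fact p.Prime] (N : Subgroup GQ) [N.Normal] (D : Subgroup GQ) (g : GQ) :
    ↥(H0 (rsub (Fun (Representation.trivial (ZMod p) GQ (ZMod p)) (GQ ⧸ N)) D)) →ₗ[ZMod p]
      ↥(H0 (rsub (Fun (Representation.trivial (ZMod p) GQ (ZMod p)) (GQ ⧸ N)) D)) :=
  Euler.onH0 D (Euler.rt (ZMod p) (ZMod p) N g) (Euler.rt_comm _ N g)

variable {L : Type} [Field L] [NumberField L]

/-- the places of `L` over `q`. -/
def PlQ (ι : L →+* Qbar) (q : Nat.Primes) : Set (Pl L) := {v | ∃ g' : GQ, IsAt ι v q g'}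

instance finite_PlQ (ι : L →+* Qbar) (q : Nat.Primes) : Finite (PlQ ι q) :=
  (Count_finite_setOf_isAt ι q).to_subtype

instance finite_SK' (ι : L →+* Qbar) (Sg : Finset Nat.Primes) : Finite (SK Sg ι) :=
  (finite_SK ι Sg).to_subtype

/-- the infinite place `w` of `L` is induced, via `ι`, by the archimedean place `g' • ∞` of `Qbar`. -/
def IsAtInf (ι : L →+* Qbar) (w : InfinitePlace L) (g' : GQ) : Prop :=
  ∀ x : L, w x = ‖complexEmbedding (g'⁻¹ (ι x))‖

/-- a ring automorphism as a `ℚ`-algebra automorphism. -/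
def toAlg (s : L ≃+* L) : L ≃ₐ[ℚ] L := AlgEquiv.ofRingEquiv (f := s) (fun r => map_ratCast s r)

@[simp] lemma toAlg_apply (s : L ≃+* L) (x : L) : toAlg s x = s x := rfl

end Fermat.Agent.S56.Units

end
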