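/-
S56 / Units / BR0 : `D`-invariant functions on `G/N` = functions on `D \ G / N`.   Statements FROZEN (owner helper73).
-/
import Fermat.Agent.S56.Units.BRDefs

set_option autoImplicit false
set_option linter.unusedSectionVars false

noncomputable section

namespace Fermat.Agent.S56.Units

open Module Polynomial Function IsDedekindDomain NumberField
open Fermat.Agent.S55 Fermat.Agent.S55.G Fermat.Agent.S55.B Fermat.Agent.S55.Places ExtCitation

variable {L : Type} [Field L] [NumberField L]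

variable {p : ℕ} [Fact p.Prime]

/-- `D`-invariant functions on `GQ/N` = functions on `D \ GQ / N`. -/
def BR0_equiv (p : ℕ) [Fact p.Prime] (N : Subgroup GQ) [N.Normal] (D : Subgroup GQ) :
    (Om N D → ZMod p) ≃ₗ[ZMod p]
      ↥(H0 (rsub (Fun (Representation.trivial (ZMod p) GQ (ZMod p)) (GQ ⧸ N)) D)) where
  toFun f := ⟨fun w => f (Quotient.mk'' w), fun d => by
    funext w
    change f (Quotient.mk'' ((d : GQ)⁻¹ • w)) = f (Quotient.mk'' w)
    congr 1
    exact Quotient.sound' ⟨d⁻¹, rfl⟩⟩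
  map_add' f f' := rfl
  map_smul' c f := rfl
  invFun φ := Quotient.lift (φ : GQ ⧸ N → ZMod p) (by
    rintro w w' ⟨d, rfl⟩
    have h := congrFun (φ.2 d⁻¹) w'
    change (φ : GQ ⧸ N → ZMod p) (((d⁻¹ : D) : GQ)⁻¹ • w') = (φ : GQ ⧸ N → ZMod p) w' at h
    rw [← h]
    congr 1)
  left_inv f := by
    funext c
    induction c using Quotient.inductionOn' with
    | h w => rfl
  right_inv φ := rfl

/-- **Task Units-BR0.**  `e : (Om N D → ZMod p) ≃ₗ H0 (rsub (Fun triv (GQ ⧸ N)) D)`, `f ↦ f ∘ Quotient.mk''`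
(invariance: `Fun_apply`: `(Fun ρ Ω d φ) w = ρ d (φ (d⁻¹ • w))`, `ρ` trivial, `d⁻¹ • w` lies in the orbit of `w`; inverse: `Quotient.lift`).
`e (permOp _ (rtOm N D g⁻¹) f) w = f ((rtOm N D g⁻¹).symm [w]) = f [w g] = (R_g (e f)) w` (`rtOm_symm`, `inv_inv`, `rtOm_mk`, `Euler.rt_apply`, `Euler.onH0_coe`).
`LinearEquiv.charpoly_conj`. -/
theorem charpoly_permOp_H0 (N : Subgroup GQ) [N.Normal] [Finite (GQ ⧸ N)] (D : Subgroup GQ)
    (g : GQ) :
    (permE p N D g).charpoly = (permOp (ZMod p) (rtOm N D g⁻¹)).charpoly := by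
  have key : ∀ f, permE p N D g (BR0_equiv p N D f)
      = BR0_equiv p N D (permOp (ZMod p) (rtOm N D g⁻¹) f) := by
    intro f
    apply Subtype.ext
    funext w
    change f (Quotient.mk'' (w * (g : GQ ⧸ N))) = f ((rtOm N D g⁻¹).symm (Quotient.mk'' w))
    rw [rtOm_symm, inv_inv, rtOm_mk]
  have hconj : permE p N D g = (BR0_equiv p N D).conj (permOp (ZMod p) (rtOm N D g⁻¹)) := by
    apply LinearMap.ext
    intro x
    rw [LinearEquiv.conj_apply_apply, ← key, LinearEquiv.apply_symm_apply]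
  rw [hconj, LinearEquiv.charpoly_conj]

end Fermat.Agent.S56.Units

end
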