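/-
S56 / Units / A2.   Statements FROZEN (owner helper73).
-/
import Mathlib

set_option autoImplicit false

noncomputable section

namespace Fermat.Agent.S56.Units

open Module Polynomial Function

/-- **Task Units-A2.**  The matrix of `γ` in `b'` is the image of the (integer) matrix of `f` in `b`:
`γ (b' j) = γ (ℓ (b j)) = ℓ (f (b j)) = ℓ (∑ i, B i j • b i) = ∑ i, (B i j : S) • b' i`
(`map_sum`, `map_zsmul`, `Int.cast_smul_eq_zsmul`).  Then `LinearMap.charpoly_toMatrix` twice and `Matrix.charpoly_map`. -/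
theorem charpoly_of_basis_map {S : Type} [CommRing S] {Λ V ι : Type} [Fintype ι] [DecidableEq ι]
    [AddCommGroup Λ] [Module.Free ℤ Λ] [Module.Finite ℤ Λ]
    [AddCommGroup V] [Module S V] [Module.Free S V] [Module.Finite S V]
    (b : Basis ι ℤ Λ) (b' : Basis ι S V) (ℓ : Λ →+ V) (hb : ∀ i, ℓ (b i) = b' i)
    (f : Module.End ℤ Λ) (γ : Module.End S V) (h : ∀ x, ℓ (f x) = γ (ℓ x)) :
    γ.charpoly = f.charpoly.map (Int.castRingHom S) := by
  rw [← LinearMap.charpoly_toMatrix γ b', ← LinearMap.charpoly_toMatrix f b, ← Matrix.charpoly_map]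
  congr 1
  ext i j
  rw [Matrix.map_apply, LinearMap.toMatrix_apply, LinearMap.toMatrix_apply, ← hb j, ← h]
  have h1 : f (b j) = ∑ i, (b.repr (f (b j)) i) • b i := (b.sum_repr _).symm
  have h2 : ℓ (f (b j)) = ∑ i, ((b.repr (f (b j)) i : ℤ) : S) • b' i := by
    conv_lhs => rw [h1]
    rw [map_sum]
    refine Finset.sum_congr rfl fun i _ => ?_
    rw [map_zsmul, hb, Int.cast_smul_eq_zsmul]
  rw [h2, map_sum]
  simp [Finsupp.single_apply]

end Fermat.Agent.S56.Units

end
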