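/-
S56 / Units / A5a.   Statements FROZEN (owner helper73).
-/
import Fermat.Agent.S56.Units.LADefs
import Fermat.Agent.S56.Units.A2

set_option autoImplicit false

noncomputable section

namespace Fermat.Agent.S56.Units

open Module Polynomial Function

/-- **Task Units-A5a** (this and the next two).  Matrix of `permOp R π` in `Pi.basisFun` is a permutation matrix with entries `0,1`;
`charpoly_of_basis_map` with `ℓ = ` componentwise cast (`Pi.basisFun ℤ T`, `Pi.basisFun R T`). -/
theorem charpoly_permOp_map (R : Type) [CommRing R] {T : Type} [Finite T] (π : Equiv.Perm T) :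
    (permOp R π).charpoly = (permOp ℤ π).charpoly.map (Int.castRingHom R) := by
  classical
  cases nonempty_fintype T
  let ℓ : (T → ℤ) →+ (T → R) :=
    { toFun := fun f t => ((f t : ℤ) : R)
      map_zero' := by funext t; simp
      map_add' := by intro f g; funext t; simp }
  refine charpoly_of_basis_map (Pi.basisFun ℤ T) (Pi.basisFun R T) ℓ ?_ _ _ ?_
  · intro i
    funext t
    show (((Pi.basisFun ℤ T) i t : ℤ) : R) = (Pi.basisFun R T) i t
    simp [Pi.basisFun_apply, Pi.single_apply]
  · intro f
    rfl

/-- transport along an equivariant bijection (`LinearEquiv.funCongrLeft`, `LinearEquiv.charpoly_conj`). -/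
theorem charpoly_permOp_congr (R : Type) [CommRing R] {T T' : Type} [Finite T] [Finite T']
    (π : Equiv.Perm T) (π' : Equiv.Perm T') (e : T ≃ T') (h : ∀ t, e (π t) = π' (e t)) :
    (permOp R π).charpoly = (permOp R π').charpoly := by
  let E : (T → R) ≃ₗ[R] (T' → R) := LinearEquiv.funCongrLeft R R e.symm
  have hconj : E.conj (permOp R π) = permOp R π' := by
    apply LinearMap.ext
    intro f
    funext t'
    rw [LinearEquiv.conj_apply_apply]
    show (E.symm f) (π.symm (e.symm t')) = f (π'.symm t')
    show f (e (π.symm (e.symm t'))) = f (π'.symm t')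
    congr 1
    rw [Equiv.eq_symm_apply, ← h, Equiv.apply_symm_apply, Equiv.apply_symm_apply]
  rw [← hconj, LinearEquiv.charpoly_conj]

/-- the matrix of `π⁻¹` is the transpose of the matrix of `π` (`Matrix.charpoly_transpose`). -/
theorem charpoly_permOp_inv (R : Type) [CommRing R] {T : Type} [Finite T] (π : Equiv.Perm T) :
    (permOp R π⁻¹).charpoly = (permOp R π).charpoly := by
  classical
  cases nonempty_fintype T
  rw [← LinearMap.charpoly_toMatrix (permOp R π⁻¹) (Pi.basisFun R T),
    ← LinearMap.charpoly_toMatrix (permOp R π) (Pi.basisFun R T), ← Matrix.charpoly_transpose]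
  congr 1
  ext i j
  simp only [Matrix.transpose_apply, LinearMap.toMatrix_apply, Pi.basisFun_repr, Pi.basisFun_apply,
    permOp_apply, Pi.single_apply]
  have : (π⁻¹).symm j = π j := rfl
  rw [this]
  by_cases hij : π j = i
  · rw [if_pos hij, if_pos]
    rw [← hij, Equiv.symm_apply_apply]
  · rw [if_neg hij, if_neg]
    intro h'
    apply hij
    rw [← h', Equiv.apply_symm_apply]

end Fermat.Agent.S56.Units

end
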