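/-
S56 / Units / A1.   Statements FROZEN (owner helper73).
-/
import Mathlib

set_option autoImplicit false

noncomputable section

namespace Fermat.Agent.S56.Units

open Module Polynomial Function

/-- **Task Units-A1.**  Choose a linear section `s` of `q` (`LinearMap.exists_rightInverse_of_surjective`),
`e : V₁ × V₃ ≃ₗ V₂`, `(a,c) ↦ i a + s c`.  With bases `b₁`, `b₃` (`Module.finBasis`) and `b := (b₁.prod b₃).map e`
the matrix of `f₂` is `Matrix.fromBlocks A₁ B 0 A₃` (up to `Matrix.reindex`; `A₁ = toMatrix b₁ b₁ f₁`,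
`A₃ = toMatrix b₃ b₃ f₃`); `Matrix.charpoly_fromBlocks_zero₂₁`, `LinearMap.charpoly_toMatrix`.
(Compare the proof of `LinearMap.charpoly_prodMap` in Mathlib/LinearAlgebra/Charpoly/ToMatrix.lean.) -/
theorem charpoly_of_exact {k : Type} [Field k] {V₁ V₂ V₃ : Type}
    [AddCommGroup V₁] [Module k V₁] [FiniteDimensional k V₁]
    [AddCommGroup V₂] [Module k V₂] [FiniteDimensional k V₂]
    [AddCommGroup V₃] [Module k V₃] [FiniteDimensional k V₃]
    (i : V₁ →ₗ[k] V₂) (q : V₂ →ₗ[k] V₃) (hi : Injective i) (hq : Surjective q) (hex : Exact i q)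
    (f₁ : Module.End k V₁) (f₂ : Module.End k V₂) (f₃ : Module.End k V₃)
    (h₁ : ∀ x, i (f₁ x) = f₂ (i x)) (h₃ : ∀ x, q (f₂ x) = f₃ (q x)) :
    f₂.charpoly = f₁.charpoly * f₃.charpoly := by
  classical
  obtain ⟨s, hs⟩ := q.exists_rightInverse_of_surjective (LinearMap.range_eq_top.mpr hq)
  have hs' : ∀ c, q (s c) = c := fun c => LinearMap.congr_fun hs c
  have hqi : ∀ a, q (i a) = 0 := fun a => hex.apply_apply_eq_zero a
  let φ : V₁ × V₃ →ₗ[k] V₂ := i.coprod s
  have hφ : Bijective φ := by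
    constructor
    · rw [injective_iff_map_eq_zero]
      rintro ⟨a, c⟩ h
      have h0 : i a + s c = 0 := h
      have hc : c = 0 := by
        have := congrArg q h0
        rwa [map_add, hqi, hs', zero_add, map_zero] at this
      rw [hc, map_zero, add_zero] at h0
      have ha : a = 0 := hi (by rw [h0, map_zero])
      rw [ha, hc]; rfl
    · intro w
      have hw : q (w - s (q w)) = 0 := by rw [map_sub, hs', sub_self]
      obtain ⟨a, ha⟩ := (hex _).mp hw
      refine ⟨(a, q w), ?_⟩
      show i a + s (q w) = w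
      rw [ha]; abel
  let e : (V₁ × V₃) ≃ₗ[k] V₂ := LinearEquiv.ofBijective φ hφ
  have he : ∀ a c, e (a, c) = i a + s c := fun a c => rfl
  have hsymm2 : ∀ w, (e.symm w).2 = q w := by
    intro w
    have h1 : e (e.symm w) = w := e.apply_symm_apply w
    have h2 : e (e.symm w) = i (e.symm w).1 + s (e.symm w).2 := rfl
    rw [h2] at h1
    have := congrArg q h1
    rwa [map_add, hqi, hs', zero_add] at this
  have hsymm1 : ∀ a, e.symm (i a) = (a, 0) := by
    intro a
    rw [LinearEquiv.symm_apply_eq, he, map_zero, add_zero]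
  let b₁ := Module.finBasis k V₁
  let b₃ := Module.finBasis k V₃
  let b := (b₁.prod b₃).map e
  rw [← LinearMap.charpoly_toMatrix f₂ b, ← LinearMap.charpoly_toMatrix f₁ b₁,
    ← LinearMap.charpoly_toMatrix f₃ b₃, ← Matrix.fromBlocks_toBlocks (LinearMap.toMatrix b b f₂)]
  have h11 : (LinearMap.toMatrix b b f₂).toBlocks₁₁ = LinearMap.toMatrix b₁ b₁ f₁ := by
    ext x y
    simp only [Matrix.toBlocks₁₁, Matrix.of_apply, LinearMap.toMatrix_apply, b, Basis.map_repr,
      Basis.map_apply, LinearEquiv.trans_apply]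
    have : (b₁.prod b₃) (Sum.inl y) = (b₁ y, 0) := by
      ext <;> simp
    rw [this, he, map_zero, add_zero, ← h₁, hsymm1]
    simp
  have h21 : (LinearMap.toMatrix b b f₂).toBlocks₂₁ = 0 := by
    ext x y
    simp only [Matrix.toBlocks₂₁, Matrix.of_apply, LinearMap.toMatrix_apply, b, Basis.map_repr,
      Basis.map_apply, LinearEquiv.trans_apply]
    have : (b₁.prod b₃) (Sum.inl y) = (b₁ y, 0) := by
      ext <;> simp
    rw [this, he, map_zero, add_zero, ← h₁, hsymm1]
    simp
  have h22 : (LinearMap.toMatrix b b f₂).toBlocks₂₂ = LinearMap.toMatrix b₃ b₃ f₃ := by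
    ext x y
    simp only [Matrix.toBlocks₂₂, Matrix.of_apply, LinearMap.toMatrix_apply, b, Basis.map_repr,
      Basis.map_apply, LinearEquiv.trans_apply]
    have : (b₁.prod b₃) (Sum.inr y) = (0, b₃ y) := by
      ext <;> simp
    rw [this, he, map_zero, zero_add, Basis.prod_repr_inr, hsymm2, h₃, hs']
  rw [h11, h21, h22, Matrix.charpoly_fromBlocks_zero₂₁]

end Fermat.Agent.S56.Units

end
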