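/-
S56 / Units / A5b.   Statements FROZEN (owner helper73).
-/
import Fermat.Agent.S56.Units.LADefs
import Fermat.Agent.S56.Units.A1

set_option autoImplicit false

noncomputable section

namespace Fermat.Agent.S56.Units

open Module Polynomial Function

/-- transport along an equivariant bijection. -/
theorem A5b_congr (R : Type) [CommRing R] {T T' : Type} [Finite T] [Finite T']
    (π : Equiv.Perm T) (π' : Equiv.Perm T') (e : T ≃ T') (h : ∀ t, e (π t) = π' (e t)) :
    (permOp R π).charpoly = (permOp R π').charpoly := by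
  have key : (LinearEquiv.funCongrLeft R R e).conj (permOp R π') = permOp R π := by
    apply LinearMap.ext
    intro g
    funext t
    have h1 : π'.symm (e t) = e (π.symm t) := by
      rw [Equiv.symm_apply_eq, ← h, Equiv.apply_symm_apply]
    show g (e.symm (π'.symm (e t))) = g (π.symm t)
    rw [h1, Equiv.symm_apply_apply]
  rw [← key, LinearEquiv.charpoly_conj]

/-- two pieces. -/
theorem A5b_sum (R : Type) [CommRing R] {T₁ T₂ : Type} [Finite T₁] [Finite T₂]
    (π₁ : Equiv.Perm T₁) (π₂ : Equiv.Perm T₂) :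
    (permOp R (Equiv.sumCongr π₁ π₂)).charpoly
      = (permOp R π₁).charpoly * (permOp R π₂).charpoly := by
  have key : (LinearEquiv.sumArrowLequivProdArrow T₁ T₂ R R).conj
      (permOp R (Equiv.sumCongr π₁ π₂)) = (permOp R π₁).prodMap (permOp R π₂) := by
    apply LinearMap.ext
    rintro ⟨g₁, g₂⟩
    rfl
  rw [← LinearMap.charpoly_prodMap, ← key, LinearEquiv.charpoly_conj]

/-- no piece. -/
theorem A5b_empty (R : Type) [CommRing R] {T : Type} [IsEmpty T] (π : Equiv.Perm T) :
    (permOp R π).charpoly = 1 := by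
  classical
  let _ : Fintype T := Fintype.ofIsEmpty
  rw [← LinearMap.charpoly_toMatrix (permOp R π) (Pi.basisFun R T), Matrix.charpoly,
    Matrix.det_isEmpty]

/-- `Σ o : Option α, T o ≃ T none ⊕ Σ a, T (some a)`. -/
def A5b_sigmaOption {α : Type} (T : Option α → Type) :
    (Σ o, T o) ≃ T none ⊕ (Σ a, T (some a)) where
  toFun x := match x with
    | ⟨none, t⟩ => Sum.inl t
    | ⟨some a, t⟩ => Sum.inr ⟨a, t⟩
  invFun x := match x with
    | Sum.inl t => ⟨none, t⟩
    | Sum.inr ⟨a, t⟩ => ⟨some a, t⟩
  left_inv x := by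
    rcases x with ⟨_ | a, t⟩ <;> rfl
  right_inv x := by
    rcases x with t | ⟨a, t⟩ <;> rfl

/-- **Task Units-A5b.**  disjoint unions: induction on the finite index type is awkward; use
`(Σ i, T i) → R ≃ₗ Π i, (T i → R)` (`LinearEquiv.piCurry`/`LinearEquiv.sigma..`) and block diagonal matrices
(`Matrix.charpoly_blockDiagonal'`-style: `Matrix.blockDiagonal'`, `Matrix.det_blockDiagonal'`), or induct with
`Finset.induction_on` on a `Finset` of indices using `charpoly_of_exact`/`LinearMap.charpoly_prodMap`. -/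
theorem charpoly_permOp_sigma (R : Type) [CommRing R] {I : Type} [Fintype I] {T : I → Type}
    [∀ i, Finite (T i)] (π : ∀ i, Equiv.Perm (T i)) :
    (permOp R (Equiv.sigmaCongrRight π)).charpoly = ∏ i, (permOp R (π i)).charpoly := by
  revert T
  refine Fintype.induction_empty_option
    (P := fun (I : Type) [Fintype I] => ∀ {T : I → Type} [∀ i, Finite (T i)]
      (π : ∀ i, Equiv.Perm (T i)),
      (permOp R (Equiv.sigmaCongrRight π)).charpoly = ∏ i, (permOp R (π i)).charpoly)
    ?_ ?_ ?_ I
  · intro α β _ e ih T _ π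
    let _ : Fintype α := Fintype.ofEquiv β e.symm
    have h1 := ih (T := fun a => T (e a)) (fun a => π (e a))
    rw [← Equiv.prod_comp e (fun b => (permOp R (π b)).charpoly), ← h1]
    symm
    refine A5b_congr R _ _ (Equiv.sigmaCongrLeft (β := T) e) ?_
    rintro ⟨a, t⟩
    rfl
  · intro T _ π
    rw [A5b_empty, Finset.univ_eq_empty, Finset.prod_empty]
  · intro α _ ih T _ π
    rw [Fintype.prod_option, ← ih (T := fun a => T (some a)) (fun a => π (some a)), ← A5b_sum]
    refine A5b_congr R _ _ (A5b_sigmaOption T) ?_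
    rintro ⟨_ | a, t⟩ <;> rfl

end Fermat.Agent.S56.Units

end
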