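/-
S56 / Units / N1 : `ord_{σ v}(σ x) = ord_v(x)`.     Statements FROZEN (owner helper73).
-/
import Fermat.Agent.S56.Units.Defs

set_option autoImplicit false
set_option linter.unusedSectionVars false

noncomputable section

namespace Fermat.Agent.S56.Units

open Module Polynomial Function IsDedekindDomain NumberField
open Fermat.Agent.S55 Fermat.Agent.S55.G Fermat.Agent.S55.B

variable {L : Type} [Field L] [NumberField L]

theorem N1_asIdeal (σ : L ≃ₐ[ℚ] L) (v : Pl L) :
    (sigPl σ v).asIdeal = v.asIdeal.map (sigInt σ) := by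
  show v.asIdeal.comap (sigInt σ).symm = _
  exact Ideal.comap_symm (sigInt σ)

theorem N1_mem (σ : L ≃ₐ[ℚ] L) (v : Pl L) (r : 𝓞 L) (n : ℕ) :
    sigInt σ r ∈ (sigPl σ v).asIdeal ^ n ↔ r ∈ v.asIdeal ^ n := by
  rw [N1_asIdeal, ← Ideal.map_pow]
  exact Ideal.apply_mem_of_equiv_iff

theorem N1_intValuation (σ : L ≃ₐ[ℚ] L) (v : Pl L) (r : 𝓞 L) :
    (sigPl σ v).intValuation (sigInt σ r) = v.intValuation r := by
  by_cases hr : r = 0
  · simp [hr]
  have hr' : sigInt σ r ≠ 0 := (map_ne_zero_iff _ (sigInt σ).injective).2 hr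
  have key : ∀ n : ℕ, (sigPl σ v).intValuation (sigInt σ r) ≤ WithZero.exp (-(n : ℤ)) ↔
      v.intValuation r ≤ WithZero.exp (-(n : ℤ)) := by
    intro n
    rw [HeightOneSpectrum.intValuation_le_pow_iff_mem, HeightOneSpectrum.intValuation_le_pow_iff_mem]
    exact N1_mem σ v r n
  apply le_antisymm
  · have h := v.intValuation_if_neg hr
    rw [h]
    exact (key _).2 h.le
  · have h := (sigPl σ v).intValuation_if_neg hr'
    rw [h]
    exact (key _).1 h.le

/-- **Task Units-N1.**  `(sigPl σ v).asIdeal = v.asIdeal.comap (sigInt σ).symm` (`HeightOneSpectrum.equivOfRingEquiv_apply`,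
`HeightOneSpectrum.comap_asIdeal`).  For `r : 𝓞 L` and `n : ℕ`:  `sigInt σ r ∈ (sigPl σ v).asIdeal ^ n ↔ r ∈ v.asIdeal ^ n`
(`Ideal.comap` of a ring equivalence commutes with powers: `Ideal.comap_symm`/`Ideal.map_pow`), so by
`HeightOneSpectrum.intValuation_le_pow_iff_mem` (or `..._le_pow_iff_dvd`) the two integer valuations agree
(both are `0` or of the form `exp (-n)`; compare via `le_antisymm` after writing the value as `exp (-n)`).
Then `x = a / b` with `a b : 𝓞 L` (`IsFractionRing.div_surjective`), `HeightOneSpectrum.valuation_of_algebraMap`, `map_div₀`. -/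
theorem valuation_sigPl (σ : L ≃ₐ[ℚ] L) (v : Pl L) (x : L) :
    (sigPl σ v).valuation L (σ x) = v.valuation L x := by
  obtain ⟨a, b, -, rfl⟩ := IsFractionRing.div_surjective (A := 𝓞 L) x
  have ha : σ (algebraMap (𝓞 L) L a) = algebraMap (𝓞 L) L (sigInt σ a) := rfl
  have hb : σ (algebraMap (𝓞 L) L b) = algebraMap (𝓞 L) L (sigInt σ b) := rfl
  rw [map_div₀ σ, ha, hb, map_div₀, map_div₀, HeightOneSpectrum.valuation_of_algebraMap,
    HeightOneSpectrum.valuation_of_algebraMap, HeightOneSpectrum.valuation_of_algebraMap,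
    HeightOneSpectrum.valuation_of_algebraMap, N1_intValuation, N1_intValuation]

/-- from `valuation_sigPl`; `ordZ v x = - toAdd (v.valuationOfNeZero x)`, `HeightOneSpectrum.valuationOfNeZero_eq`
(see `S55/B/Ord.lean`: `log_valuation_eq`, `ordZ_eq_zero_iff` for the API of `ordZ`). -/
theorem ordZ_sigPl (σ : L ≃ₐ[ℚ] L) (v : Pl L) (x : Lˣ) :
    ordZ (sigPl σ v) (sigU σ x) = ordZ v x := by
  have h1 := log_valuation_eq (sigPl σ v) (sigU σ x)
  have h2 := log_valuation_eq v x
  rw [coe_sigU, valuation_sigPl, h2] at h1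
  exact (neg_injective h1).symm

end Fermat.Agent.S56.Units

end
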