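/-
S56 / Units / BR1 : finite places of `L` over `q` = `D_q \ GQ / N`, equivariantly.   Statements FROZEN (owner helper73).
-/
import Fermat.Agent.S56.Units.BRDefs
import Fermat.Agent.S56.Units.N1

set_option autoImplicit false
set_option linter.unusedSectionVars false

noncomputable section

namespace Fermat.Agent.S56.Units

open Module Polynomial Function IsDedekindDomain NumberField
open Fermat.Agent.S55 Fermat.Agent.S55.G Fermat.Agent.S55.B Fermat.Agent.S55.Places ExtCitation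

variable {L : Type} [Field L] [NumberField L]

variable (ι : L →+* Qbar) (σ : L ≃ₐ[ℚ] L) (g : GQ) (hs : ∀ x, ι (σ x) = g (ι x))

include hs

/-- **Task Units-BR1** (whole file).  Same `c`.  For `x ≠ 0` put `y = σ.symm x`: `(sigPl σ v).valuation L x = v.valuation L y` (`valuation_sigPl`), and
`nrmg q (g * g') (ι x) = nrm q (g'⁻¹ (g⁻¹ (ι (σ y)))) = nrm q (g'⁻¹ (ι y)) = nrmg q g' (ι y)` (unfold `nrmg`, `mul_inv_rev`, `hs`). -/
theorem isAt_sigPl {v : Pl L} {q : Nat.Primes} {g' : GQ} (h : IsAt ι v q g') :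
    IsAt ι (sigPl σ v) q (g * g') := by
  obtain ⟨c, hc0, hc1, hc⟩ := h
  refine ⟨c, hc0, hc1, fun x hx => ?_⟩
  obtain ⟨y, rfl⟩ := σ.surjective x
  have hy : y ≠ 0 := by
    rintro rfl
    exact hx (map_zero σ)
  rw [valuation_sigPl, ← hc y hy, hs]
  unfold nrmg
  rw [mul_inv_rev, AlgEquiv.mul_apply]
  congr 2
  exact AlgEquiv.symm_apply_apply g (ι y)

/-- converse direction: apply `isAt_sigPl` to `σ.symm`, `g⁻¹` (or: `exists_isAt' ι q (g⁻¹ * g')` + `IsAt.unique`). -/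
theorem PlQ_stable (q : Nat.Primes) : ∀ v, sigPl σ v ∈ PlQ ι q ↔ v ∈ PlQ ι q := by
  intro v
  constructor
  · rintro ⟨g', hg'⟩
    obtain ⟨v', hv'⟩ := exists_isAt' ι q (g⁻¹ * g')
    have h1 := isAt_sigPl ι σ g hs hv'
    rw [mul_inv_cancel_left] at h1
    have h2 : sigPl σ v' = sigPl σ v := IsAt.unique ι h1 hg'
    rw [← (sigPl σ).injective h2]
    exact ⟨_, hv'⟩
  · rintro ⟨g', hg'⟩
    exact ⟨_, isAt_sigPl ι σ g hs hg'⟩

theorem SK_stable (Sg : Finset Nat.Primes) : ∀ v, sigPl σ v ∈ SK Sg ι ↔ v ∈ SK Sg ι := by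
  intro v
  constructor
  · rintro ⟨q, hq, h⟩
    exact ⟨q, hq, (PlQ_stable ι σ g hs q v).1 h⟩
  · rintro ⟨q, hq, h⟩
    exact ⟨q, hq, (PlQ_stable ι σ g hs q v).2 h⟩

omit hs in
/-- the class of a place in `D_q \ GQ / U` does not depend on the choice of `g'`. -/
theorem BR1_mk_eq {v : Pl L} {q : Nat.Primes} {g₁ g₂ : GQ} (h₁ : IsAt ι v q g₁)
    (h₂ : IsAt ι v q g₂) :
    (Quotient.mk'' ((g₁⁻¹ : GQ) : GQ ⧸ fixG ι) : Om (fixG ι) (DqP q))
      = Quotient.mk'' ((g₂⁻¹ : GQ) : GQ ⧸ fixG ι) := by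
  have h1 := IsAt.samePlace ι h₁ h₂
  rw [Count_samePlace_iff] at h1
  obtain ⟨u, hu, d, hd, rfl⟩ := h1
  apply Quotient.eq''.2
  refine ⟨⟨d, hd⟩, ?_⟩
  change (((d : GQ) * (u * g₁ * d)⁻¹ : GQ) : GQ ⧸ fixG ι) = ((g₁⁻¹ : GQ) : GQ ⧸ fixG ι)
  rw [QuotientGroup.eq]
  have h4 : (d * (u * g₁ * d)⁻¹)⁻¹ * g₁⁻¹ = u := by group
  rw [h4]
  exact hu

/-- copy the bijection `F` from the proof of `B.ncard_setOf_isAt` (`S55/B/Count.lean`): `v ↦ [(γ v)⁻¹]` where `IsAt ι v q (γ v)`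
(`Equiv.ofBijective`).  KEY: if `IsAt ι v q g'` for ANY `g'` then `e v = [g'⁻¹]` (`IsAt.samePlace`, `Count_samePlace_iff`).
Equivariance: `IsAt ι (sigPl σ v) q (g * γ v)`, so `e (σ v) = [(γ v)⁻¹ g⁻¹] = rtOm _ _ g⁻¹ (e v)`. -/
theorem exists_equiv_PlQ [(fixG ι).Normal] (q : Nat.Primes) :
    ∃ e : PlQ ι q ≃ Om (fixG ι) (DqP q),
      ∀ v, e (plPerm σ (PlQ ι q) (PlQ_stable ι σ g hs q) v) = rtOm (fixG ι) (DqP q) g⁻¹ (e v) := by
  choose γ hγ using fun v : PlQ ι q => v.2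
  let F : PlQ ι q → Om (fixG ι) (DqP q) :=
    fun v => Quotient.mk'' (((γ v)⁻¹ : GQ) : GQ ⧸ fixG ι)
  have hF : ∀ (v : PlQ ι q) (g' : GQ), IsAt ι v.1 q g' →
      F v = Quotient.mk'' ((g'⁻¹ : GQ) : GQ ⧸ fixG ι) := fun v g' h => BR1_mk_eq ι (hγ v) h
  have hbij : Bijective F := by
    constructor
    · intro v v' h
      have h1 : (((γ v)⁻¹ : GQ) : GQ ⧸ fixG ι) ∈
          MulAction.orbit ↥(DqP q) (((γ v')⁻¹ : GQ) : GQ ⧸ fixG ι) := Quotient.eq''.1 h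
      obtain ⟨d, hd⟩ := h1
      have h2 : (((d : GQ) * (γ v')⁻¹ : GQ) : GQ ⧸ fixG ι) = (((γ v)⁻¹ : GQ) : GQ ⧸ fixG ι) := hd
      rw [QuotientGroup.eq] at h2
      have h3 : SamePlace (fixG ι) (q, γ v') (q, γ v) := by
        rw [Count_samePlace_iff]
        refine ⟨_, (fixG ι).inv_mem h2, (d : GQ)⁻¹, (DqP q).inv_mem d.2, ?_⟩
        group
      exact Subtype.ext (IsAt.unique ι (hγ v) (IsAt.of_samePlace ι (hγ v') h3))
    · intro c
      induction c using Quotient.inductionOn' with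
      | h c =>
        induction c using QuotientGroup.induction_on with
        | H x =>
          obtain ⟨v, hv⟩ := exists_isAt' ι q x⁻¹
          refine ⟨⟨v, x⁻¹, hv⟩, ?_⟩
          rw [hF ⟨v, x⁻¹, hv⟩ x⁻¹ hv, inv_inv]
  refine ⟨Equiv.ofBijective F hbij, fun v => ?_⟩
  have h1 : F (plPerm σ (PlQ ι q) (PlQ_stable ι σ g hs q) v)
      = Quotient.mk'' (((g * γ v)⁻¹ : GQ) : GQ ⧸ fixG ι) :=
    hF _ (g * γ v) (isAt_sigPl ι σ g hs (hγ v))
  have h2 : rtOm (fixG ι) (DqP q) g⁻¹ (F v)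
      = Quotient.mk'' ((((γ v)⁻¹ : GQ) : GQ ⧸ fixG ι) * ((g⁻¹ : GQ) : GQ ⧸ fixG ι)) :=
    rtOm_mk _ _ _ _
  rw [Equiv.ofBijective_apply, Equiv.ofBijective_apply, h1, h2, mul_inv_rev, QuotientGroup.mk_mul]

end Fermat.Agent.S56.Units

end
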