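/-
S56 / Units / BR2 : the places over `Σ` are the disjoint union of the places over `q ∈ Σ`.   Statements FROZEN (owner helper73).
-/
import Fermat.Agent.S56.Units.BR1
import Fermat.Agent.S56.Units.A5a
import Fermat.Agent.S56.Units.A5b

set_option autoImplicit false
set_option linter.unusedSectionVars false

noncomputable section

namespace Fermat.Agent.S56.Units

open Module Polynomial Function IsDedekindDomain NumberField
open Fermat.Agent.S55 Fermat.Agent.S55.G Fermat.Agent.S55.B Fermat.Agent.S55.Places ExtCitation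

variable {L : Type} [Field L] [NumberField L]

variable {p : ℕ} [Fact p.Prime]
variable (ι : L →+* Qbar) (σ : L ≃ₐ[ℚ] L) (g : GQ) (hs : ∀ x, ι (σ x) = g (ι x))

/-- **Task Units-BR2.**  `e : SK Sg ι ≃ Σ q : Sg, PlQ ι q` (the prime below a place is unique: `IsAt.prime_unique`), equivariant for
`plPerm σ (SK Sg ι) _` and `Equiv.sigmaCongrRight (fun q => plPerm σ (PlQ ι q) _)`; `charpoly_permOp_congr`, `charpoly_permOp_sigma`
(`I = ↥Sg`), then `Finset.prod_coe_sort` / `Finset.prod_attach`. -/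
theorem charpoly_plPerm_SK (Sg : Finset Nat.Primes) :
    (permOp (ZMod p) (plPerm σ (SK Sg ι) (SK_stable ι σ g hs Sg))).charpoly =
      ∏ q ∈ Sg, (permOp (ZMod p) (plPerm σ (PlQ ι q) (PlQ_stable ι σ g hs q))).charpoly := by
  classical
  let f : (Σ q : Sg, PlQ ι (q : Nat.Primes)) → SK Sg ι := fun x => ⟨x.2.1, x.1.1, x.1.2, x.2.2⟩
  have hf : Function.Bijective f := by
    constructor
    · rintro ⟨⟨q, hq⟩, ⟨v, g1, h1⟩⟩ ⟨⟨q', hq'⟩, ⟨v', g2, h2⟩⟩ h
      have hv : v = v' := congrArg Subtype.val h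
      subst hv
      have hq2 : q = q' := IsAt.prime_unique h1 h2
      subst hq2
      rfl
    · rintro ⟨v, q, hq, g1, h1⟩
      exact ⟨⟨⟨q, hq⟩, ⟨v, g1, h1⟩⟩, rfl⟩
  rw [← Finset.prod_coe_sort Sg
      (fun q => (permOp (ZMod p) (plPerm σ (PlQ ι q) (PlQ_stable ι σ g hs q))).charpoly),
    ← charpoly_permOp_sigma (ZMod p) (I := Sg) (T := fun q => PlQ ι (q : Nat.Primes))
      (fun q => plPerm σ (PlQ ι q) (PlQ_stable ι σ g hs q))]
  symm
  refine charpoly_permOp_congr (ZMod p) _ _ (Equiv.ofBijective f hf) ?_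
  rintro ⟨q, v⟩
  rfl

end Fermat.Agent.S56.Units

end
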