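/-
S56 / Units / BR3a : infinite places of `L` and the archimedean places `g' • ∞` of `Qbar`.   Statements FROZEN (owner helper73).
-/
import Fermat.Agent.S56.Units.BRDefs

set_option autoImplicit false
set_option linter.unusedSectionVars false

noncomputable section

namespace Fermat.Agent.S56.Units

open Module Polynomial Function IsDedekindDomain NumberField
open Fermat.Agent.S55 Fermat.Agent.S55.G Fermat.Agent.S55.B Fermat.Agent.S55.Places ExtCitation

variable {L : Type} [Field L] [NumberField L]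

variable (ι : L →+* Qbar)

/-- the complex embedding `x ↦ complexEmbedding (g'⁻¹ (ι x))`. -/
def BR3a_emb (g' : GQ) : L →+* ℂ :=
  (complexEmbedding : Qbar →+* ℂ).comp ((((g'⁻¹ : GQ) : Qbar ≃+* Qbar) : Qbar →+* Qbar).comp ι)

lemma BR3a_emb_apply (g' : GQ) (x : L) : BR3a_emb ι g' x = complexEmbedding (g'⁻¹ (ι x)) := rfl

lemma BR3a_isAtInf_iff (w : InfinitePlace L) (g' : GQ) :
    IsAtInf ι w g' ↔ w = InfinitePlace.mk (BR3a_emb ι g') := by
  constructor
  · intro h
    ext x
    rw [h x]; rfl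
  · rintro rfl x
    rfl

theorem exists_isAtInf' (g' : GQ) : ∃ w : InfinitePlace L, IsAtInf ι w g' :=
  ⟨_, (BR3a_isAtInf_iff ι _ g').2 rfl⟩

theorem IsAtInf.unique {w w' : InfinitePlace L} {g' : GQ} (h : IsAtInf ι w g')
    (h' : IsAtInf ι w' g') : w = w' := by
  rw [(BR3a_isAtInf_iff ι _ g').1 h, (BR3a_isAtInf_iff ι _ g').1 h']

theorem exists_gal_of_embeddings (ψ : L →+* Qbar) : ∃ h : GQ, ∀ x, ψ x = h (ι x) := by
  have halg : Algebra.IsAlgebraic ℚ Qbar := AlgebraicClosure.isAlgebraic ℚ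
  have hcl : IsAlgClosure ℚ Qbar := ⟨inferInstance, inferInstance⟩
  have hnorm : Normal ℚ Qbar := IsAlgClosure.normal ℚ Qbar
  let _ : Algebra L Qbar := ι.toAlgebra
  have : IsScalarTower ℚ L Qbar := IsScalarTower.of_algebraMap_eq' (Subsingleton.elim _ _)
  let ϕ : L →ₐ[ℚ] Qbar := ψ.toRatAlgHom
  let θ : Qbar →ₐ[ℚ] Qbar := ϕ.liftNormal Qbar
  have hθ : ∀ x : L, θ (ι x) = ψ x := fun x => AlgHom.liftNormal_commutes ϕ Qbar x
  exact ⟨AlgEquiv.ofBijective θ (Algebra.IsAlgebraic.algHom_bijective θ), fun x => (hθ x).symm⟩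

/-- algebraic complex numbers are in the range of `complexEmbedding`. -/
lemma BR3a_mem_range {z : ℂ} (hz : IsAlgebraic ℚ z) :
    z ∈ (complexEmbedding : Qbar →+* ℂ).range := by
  obtain ⟨P, hP0, hPz⟩ := hz
  have hsp : (P.map (algebraMap ℚ Qbar)).Splits := IsAlgClosed.splits _
  refine hsp.mem_range_of_isRoot (Polynomial.map_ne_zero hP0) ?_
  rw [Polynomial.map_map, IsRoot.def, eval_map]
  have : ((complexEmbedding : Qbar →+* ℂ).comp (algebraMap ℚ Qbar)) = algebraMap ℚ ℂ :=
    Subsingleton.elim _ _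
  rw [this]
  exact hPz

theorem exists_isAtInf (w : InfinitePlace L) : ∃ g' : GQ, IsAtInf ι w g' := by
  let φ : L →+* ℂ := w.embedding
  have hmem : ∀ x : L, φ x ∈ (complexEmbedding : Qbar →+* ℂ).range := by
    intro x
    apply BR3a_mem_range
    have hx : IsAlgebraic ℚ x := Algebra.IsAlgebraic.isAlgebraic x
    obtain ⟨P, hP0, hP⟩ := hx
    refine ⟨P, hP0, ?_⟩
    have := congrArg φ.toRatAlgHom hP
    rw [← Polynomial.aeval_algHom_apply, map_zero] at this
    exact this
  have hinj : Function.Injective (complexEmbedding : Qbar →+* ℂ) :=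
    (complexEmbedding : Qbar →+* ℂ).injective
  let e : Qbar ≃+* (complexEmbedding : Qbar →+* ℂ).range := RingEquiv.ofBijective
    (complexEmbedding : Qbar →+* ℂ).rangeRestrict
    ⟨fun a b hab => hinj (congrArg Subtype.val hab), RingHom.rangeRestrict_surjective _⟩
  let ψ : L →+* Qbar := (e.symm : _ →+* Qbar).comp (φ.codRestrict _ hmem)
  have hψ : ∀ x, complexEmbedding (ψ x) = φ x := by
    intro x
    have h1 : e (ψ x) = φ.codRestrict _ hmem x := e.apply_symm_apply _
    exact congrArg Subtype.val h1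
  obtain ⟨h, hh⟩ := exists_gal_of_embeddings ι ψ
  refine ⟨h⁻¹, fun x => ?_⟩
  rw [inv_inv, ← hh, hψ]
  exact (InfinitePlace.norm_embedding_eq w x).symm

/-- the elements of `GQ` preserving the archimedean absolute value. -/
def BR3a_isom : Subgroup GQ where
  carrier := {d | ∀ y : Qbar, ‖complexEmbedding (d y)‖ = ‖complexEmbedding y‖}
  mul_mem' := by
    intro a b ha hb y
    rw [AlgEquiv.mul_apply, ha, hb]
  one_mem' := fun _ => rfl
  inv_mem' := by
    intro a ha y
    have := ha (a⁻¹ y)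
    rw [← AlgEquiv.mul_apply, mul_inv_cancel] at this
    exact this.symm

lemma BR3a_zpowers_le : Subgroup.zpowers complexConjugation ≤ BR3a_isom := by
  rw [Subgroup.zpowers_le]
  intro y
  rw [complexEmbedding_complexConjugation]
  exact Complex.norm_conj _

theorem IsAtInf.iff_of {w : InfinitePlace L} {g' : GQ} (h : IsAtInf ι w g') (g'' : GQ) :
    IsAtInf ι w g'' ↔
      ∃ u ∈ fixG ι, ∃ d ∈ Subgroup.zpowers complexConjugation, g'' = u * g' * d := by
  have hinj : Function.Injective complexEmbedding := complexEmbedding.toRingHom.injective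
  constructor
  · intro h''
    have h1 := (BR3a_isAtInf_iff ι _ g').1 h
    have h2 := (BR3a_isAtInf_iff ι _ g'').1 h''
    rw [h1] at h2
    rcases InfinitePlace.mk_eq_iff.1 h2 with h3 | h3
    · refine ⟨g'' * g'⁻¹, fun x => ?_, 1, Subgroup.one_mem _, by group⟩
      have h4 : g'⁻¹ (ι x) = g''⁻¹ (ι x) := hinj (RingHom.congr_fun h3 x)
      rw [AlgEquiv.mul_apply, h4, ← AlgEquiv.mul_apply, mul_inv_cancel]
      rfl
    · refine ⟨g'' * complexConjugation * g'⁻¹, fun x => ?_, complexConjugation,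
        Subgroup.mem_zpowers _, ?_⟩
      · have h4 : complexConjugation (g'⁻¹ (ι x)) = g''⁻¹ (ι x) := by
          apply hinj
          rw [complexEmbedding_complexConjugation]
          exact RingHom.congr_fun h3 x
        rw [AlgEquiv.mul_apply, AlgEquiv.mul_apply, h4, ← AlgEquiv.mul_apply, mul_inv_cancel]
        rfl
      · rw [mul_assoc, mul_assoc, inv_mul_cancel_left, mul_assoc, complexConjugation_mul_self,
          mul_one]
  · rintro ⟨u, hu, d, hd, rfl⟩ x
    have hu' : u⁻¹ (ι x) = ι x := (fixG ι).inv_mem hu x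
    have hd' := BR3a_zpowers_le ((Subgroup.zpowers complexConjugation).inv_mem hd)
    rw [mul_inv_rev, mul_inv_rev, AlgEquiv.mul_apply, AlgEquiv.mul_apply, hu', hd' _]
    exact h x

end Fermat.Agent.S56.Units

end
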