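/-
S56 / Units / BR3b : infinite places of `L` = `<c> \ GQ / N`, equivariantly.   Statements FROZEN (owner helper73).
-/
import Fermat.Agent.S56.Units.BR3a

set_option autoImplicit false
set_option linter.unusedSectionVars false

noncomputable section

namespace Fermat.Agent.S56.Units

open Module Polynomial Function IsDedekindDomain NumberField
open Fermat.Agent.S55 Fermat.Agent.S55.G Fermat.Agent.S55.B Fermat.Agent.S55.Places ExtCitation

variable {L : Type} [Field L] [NumberField L]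

variable (ι : L →+* Qbar) (σ : L ≃ₐ[ℚ] L) (g : GQ) (hs : ∀ x, ι (σ x) = g (ι x))

include hs in
/-- **Task Units-BR3b** (whole file).  `(infPerm σ w) x = w (σ.symm x)` (`InfinitePlace.smul_apply`), `ι (σ.symm x) = g⁻¹ (ι x)`. -/
theorem isAtInf_infPerm {w : InfinitePlace L} {g' : GQ} (h : IsAtInf ι w g') :
    IsAtInf ι (infPerm σ w) (g * g') := by
  intro x
  obtain ⟨y, rfl⟩ := σ.surjective x
  rw [infPerm_apply, h y, hs y, mul_inv_rev, AlgEquiv.mul_apply]
  congr 3
  exact (AlgEquiv.symm_apply_apply g (ι y)).symm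

include hs in
/-- as `exists_equiv_PlQ` (BR1) / `B.ncard_setOf_isAt`: `w ↦ [(γ w)⁻¹]`, `IsAtInf ι w (γ w)` (`exists_isAtInf`); injective: `IsAtInf.iff_of`, `IsAtInf.unique`;
surjective: `exists_isAtInf'`. -/
theorem exists_equiv_inf [(fixG ι).Normal] :
    ∃ e : InfinitePlace L ≃ Om (fixG ι) (Subgroup.zpowers complexConjugation),
      ∀ w, e (infPerm σ w) = rtOm (fixG ι) (Subgroup.zpowers complexConjugation) g⁻¹ (e w) := by
  choose γ hγ using fun w : InfinitePlace L => exists_isAtInf ι w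
  let F : InfinitePlace L → Om (fixG ι) (Subgroup.zpowers complexConjugation) :=
    fun w => Quotient.mk'' (((γ w)⁻¹ : GQ) : GQ ⧸ fixG ι)
  have key : ∀ (w : InfinitePlace L) (g'' : GQ), IsAtInf ι w g'' →
      F w = Quotient.mk'' ((g''⁻¹ : GQ) : GQ ⧸ fixG ι) := by
    intro w g'' h
    obtain ⟨u, hu, d, hd, h2⟩ := ((hγ w).iff_of ι g'').mp h
    apply Quotient.eq''.2
    refine ⟨⟨d, hd⟩, ?_⟩
    change (((d : GQ) * g''⁻¹ : GQ) : GQ ⧸ fixG ι) = (((γ w)⁻¹ : GQ) : GQ ⧸ fixG ι)
    rw [QuotientGroup.eq]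
    have h4 : (d * g''⁻¹)⁻¹ * (γ w)⁻¹ = u := by
      rw [h2]
      group
    rw [h4]
    exact hu
  have hbij : Function.Bijective F := by
    refine ⟨?_, ?_⟩
    · intro w w' h
      have h1 : (((γ w)⁻¹ : GQ) : GQ ⧸ fixG ι) ∈
          MulAction.orbit ↥(Subgroup.zpowers complexConjugation)
            (((γ w')⁻¹ : GQ) : GQ ⧸ fixG ι) := Quotient.eq''.1 h
      obtain ⟨d, hd⟩ := h1
      have h2 : (((d : GQ) * (γ w')⁻¹ : GQ) : GQ ⧸ fixG ι) = (((γ w)⁻¹ : GQ) : GQ ⧸ fixG ι) := hd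
      rw [QuotientGroup.eq] at h2
      have h3 : IsAtInf ι w (γ w') := by
        refine ((hγ w).iff_of ι (γ w')).mpr ⟨_, h2, (d : GQ), d.2, ?_⟩
        group
      exact IsAtInf.unique ι h3 (hγ w')
    · intro c
      induction c using Quotient.inductionOn' with
      | h c =>
        induction c using QuotientGroup.induction_on with
        | H x =>
          obtain ⟨w, hw⟩ := exists_isAtInf' ι x⁻¹
          refine ⟨w, ?_⟩
          rw [key w _ hw, inv_inv]
  refine ⟨Equiv.ofBijective F hbij, fun w => ?_⟩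
  show F (infPerm σ w) = rtOm (fixG ι) (Subgroup.zpowers complexConjugation) g⁻¹ (F w)
  rw [key _ _ (isAtInf_infPerm ι σ g hs (hγ w)), mul_inv_rev]
  rfl

end Fermat.Agent.S56.Units

end
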