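/-
S56 / Units / A5c.   Statements FROZEN (owner helper73).
-/
import Fermat.Agent.S56.Units.LADefs
import Fermat.Agent.S56.Units.A1

set_option autoImplicit false

noncomputable section

namespace Fermat.Agent.S56.Units

open Module Polynomial Function

/-- **Task Units-A5c.**  `0 → H → (T → k) → k → 0` (`q =` sum of the coordinates, `T` nonempty), `charpoly_of_exact`;
the charpoly of the identity of the 1-dimensional space `k` is `X - 1`. -/
theorem charpoly_permOp_hyperplane (k : Type) [Field k] {T : Type} [Fintype T] [Nonempty T]
    (π : Equiv.Perm T) (H : Submodule k (T → k)) (hH : ∀ f, f ∈ H ↔ ∑ t, f t = 0)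
    (hst : ∀ f ∈ H, permOp k π f ∈ H) :
    (permOp k π).charpoly = ((permOp k π).restrict hst).charpoly * (X - 1) := by
  classical
  let q : (T → k) →ₗ[k] k :=
    { toFun := fun f => ∑ t, f t
      map_add' := by intro f g; simp [Finset.sum_add_distrib]
      map_smul' := by intro c f; simp [Finset.mul_sum] }
  have hq : Surjective q := by
    intro c
    obtain ⟨t₀⟩ := ‹Nonempty T›
    refine ⟨Pi.single t₀ c, ?_⟩
    show ∑ t, (Pi.single t₀ c : T → k) t = c
    simp
  have hex : Exact H.subtype q := by
    intro f
    constructor
    · intro hf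
      exact ⟨⟨f, (hH f).mpr hf⟩, rfl⟩
    · rintro ⟨g, rfl⟩
      exact (hH _).mp g.2
  have h := charpoly_of_exact H.subtype q H.injective_subtype hq hex
    ((permOp k π).restrict hst) (permOp k π) LinearMap.id (fun x => rfl) (fun f => by
      show ∑ t, f (π.symm t) = ∑ t, f t
      exact Equiv.sum_comp π.symm f)
  rw [h]
  congr 1
  have h1 : (LinearMap.id : Module.End k k).charpoly = X - 1 := by
    rw [← LinearMap.charpoly_toMatrix (LinearMap.id : Module.End k k) (Basis.singleton Unit k),
      LinearMap.toMatrix_id, Matrix.charpoly_one]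
    simp
  exact h1

end Fermat.Agent.S56.Units

end
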