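/-
S56 / Units / A4.   Statements FROZEN (owner helper73).
-/
import Fermat.Agent.S56.Units.LADefs
import Fermat.Agent.S56.Units.A2

set_option autoImplicit false

noncomputable section

namespace Fermat.Agent.S56.Units

open Module Polynomial Function

variable {p : ℕ} [Fact p.Prime]

/-- **Task Units-A4** (with the next two).  `r ∘ b` is a basis of `W`: spanning by surjectivity; independent: if
`∑ c_i r(b_i) = 0`, lift `c_i` to integers `n_i` (`ZMod.intCast_surjective`), `r (∑ n_i b_i) = 0`, so `∑ n_i b_i = p • y`, compare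
coordinates: `p ∣ n_i`, `c_i = 0` (`ZMod.intCast_zmod_eq_zero_iff_dvd` / `(ZMod.intCast_eq_zero_iff ..)`). -/
theorem IsRed.exists_basis {Λ W ι : Type} [AddCommGroup Λ] [AddCommGroup W] [Module (ZMod p) W]
    {r : Λ →+ W} (hr : IsRed p r) (b : Basis ι ℤ Λ) :
    ∃ b' : Basis ι (ZMod p) W, ∀ i, r (b i) = b' i := by
  classical
  have hzs : ∀ (n : ℤ) (x : Λ), r (n • x) = (n : ZMod p) • r x := by
    intro n x
    rw [map_zsmul, Int.cast_smul_eq_zsmul]
  have hli : LinearIndependent (ZMod p) (fun i => r (b i)) := by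
    rw [linearIndependent_iff']
    intro s g hg i hi
    choose n hn using fun j => ZMod.intCast_surjective (g j)
    have h1 : r (∑ j ∈ s, n j • b j) = 0 := by
      rw [map_sum, ← hg]
      refine Finset.sum_congr rfl fun j _ => ?_
      rw [hzs, hn]
    obtain ⟨y, hy⟩ := (hr.ker _).mp h1
    have h2 := congrArg (b.coord i) hy
    rw [map_sum, map_nsmul] at h2
    have h3 : ∑ j ∈ s, b.coord i (n j • b j) = n i := by
      rw [Finset.sum_eq_single i]
      · simp
      · intro j _ hji
        simp [hji]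
      · intro h; exact absurd hi h
    rw [h3] at h2
    rw [← hn i, ZMod.intCast_zmod_eq_zero_iff_dvd]
    exact ⟨b.coord i y, by rw [h2, nsmul_eq_mul]⟩
  have hsp : ⊤ ≤ Submodule.span (ZMod p) (Set.range fun i => r (b i)) := by
    intro w hw
    clear hw
    obtain ⟨a, rfl⟩ := hr.surj w
    have ha : a ∈ Submodule.span ℤ (Set.range b) := b.mem_span a
    induction ha using Submodule.span_induction with
    | mem x hx =>
      obtain ⟨i, rfl⟩ := hx
      exact Submodule.subset_span ⟨i, rfl⟩
    | zero => rw [map_zero]; exact zero_mem _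
    | add x y _ _ hx hy => rw [map_add]; exact add_mem hx hy
    | smul n x _ hx => rw [hzs]; exact Submodule.smul_mem _ _ hx
  exact ⟨Basis.mk hli hsp, fun i => (Basis.mk_apply hli hsp i).symm⟩

theorem IsRed.finite {Λ W : Type} [AddCommGroup Λ] [Module.Finite ℤ Λ] [AddCommGroup W]
    [Module (ZMod p) W] {r : Λ →+ W} (hr : IsRed p r) : Module.Finite (ZMod p) W := by
  have h1 : Module.Finite ℤ W := Module.Finite.of_surjective r.toIntLinearMap hr.surj
  exact Module.Finite.of_restrictScalars_finite ℤ (ZMod p) W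

/-- from `IsRed.exists_basis` (with `Module.Free.chooseBasis ℤ Λ`) and `charpoly_of_basis_map`. -/
theorem IsRed.charpoly {Λ W : Type} [AddCommGroup Λ] [Module.Free ℤ Λ] [Module.Finite ℤ Λ]
    [AddCommGroup W] [Module (ZMod p) W] [Module.Finite (ZMod p) W]
    {r : Λ →+ W} (hr : IsRed p r) (f : Module.End ℤ Λ) (fW : Module.End (ZMod p) W)
    (h : ∀ x, r (f x) = fW (r x)) :
    fW.charpoly = f.charpoly.map (Int.castRingHom (ZMod p)) := by
  classical
  obtain ⟨b', hb'⟩ := hr.exists_basis (Module.Free.chooseBasis ℤ Λ)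
  exact charpoly_of_basis_map (Module.Free.chooseBasis ℤ Λ) b' r hb' f fW h

end Fermat.Agent.S56.Units

end
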