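/-
S56 / Units / A6.   Statements FROZEN (owner helper73).
-/
import Fermat.Agent.S56.Units.LADefs

set_option autoImplicit false

noncomputable section

namespace Fermat.Agent.S56.Units

open Module Polynomial Function

variable {p : ℕ} [Fact p.Prime]

/-- **Task Units-A6.**  `r'' (q a) := mkQ (r a)`.  Well defined: `q a = q a₁` ⇒ `a - a₁ = i a'` ⇒ `r a - r a₁ = j (r' a')`.
(Construct it e.g. as `AddMonoidHom` via `Function.surjInv hq` and prove additivity from well-definedness, or via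
`QuotientAddGroup.lift` and `QuotientAddGroup.quotientKerEquivOfSurjective`.)
Surjective: clear.  Kernel: `mkQ (r a) = 0` ⇒ `r a = j (r' a') = r (i a')` ⇒ `a - i a' = p • b` ⇒ `q a = p • q b`.
Conversely `q a = p • c = p • q b = q (p • b)` ⇒ `a - p • b = i a'` ⇒ `r a = r (i a') + p • r b = j (r' a')`
(`p • w = 0` in a `ZMod p`-module: `ZModModule.char_nsmul_eq_zero`).   (No torsion-freeness is needed here.) -/
theorem IsRed.exists_quot {A' A A'' W' W : Type} [AddCommGroup A'] [AddCommGroup A]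
    [AddCommGroup A''] [AddCommGroup W'] [Module (ZMod p) W'] [AddCommGroup W] [Module (ZMod p) W]
    (i : A' →+ A) (q : A →+ A'') (hq : Surjective q) (hex : ∀ a, q a = 0 ↔ ∃ a', i a' = a)
    {r' : A' →+ W'} {r : A →+ W} (hr' : IsRed p r') (hr : IsRed p r)
    (j : W' →ₗ[ZMod p] W) (hj : ∀ a', r (i a') = j (r' a')) :
    ∃ r'' : A'' →+ (W ⧸ LinearMap.range j), IsRed p r'' ∧
      ∀ a, r'' (q a) = (LinearMap.range j).mkQ (r a) := by
  let g : A →+ (W ⧸ LinearMap.range j) := ((LinearMap.range j).mkQ).toAddMonoidHom.comp r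
  have hg : ∀ a, g a = (LinearMap.range j).mkQ (r a) := fun _ => rfl
  have hker : q.ker ≤ g.ker := by
    intro a ha
    rw [AddMonoidHom.mem_ker] at ha ⊢
    obtain ⟨a', rfl⟩ := (hex a).mp ha
    rw [hg, hj, Submodule.mkQ_apply, Submodule.Quotient.mk_eq_zero]
    exact LinearMap.mem_range_self j _
  let r'' : A'' →+ (W ⧸ LinearMap.range j) := q.liftOfSurjective hq ⟨g, hker⟩
  have hr'' : ∀ a, r'' (q a) = (LinearMap.range j).mkQ (r a) := fun a =>
    AddMonoidHom.liftOfRightInverse_comp_apply q _ (Function.rightInverse_surjInv hq) ⟨g, hker⟩ a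
  refine ⟨r'', ⟨?_, ?_⟩, hr''⟩
  · intro w
    obtain ⟨w0, rfl⟩ := (LinearMap.range j).mkQ_surjective w
    obtain ⟨a, rfl⟩ := hr.surj w0
    exact ⟨q a, hr'' a⟩
  · intro c
    constructor
    · intro hc
      obtain ⟨a, rfl⟩ := hq c
      rw [hr'', Submodule.mkQ_apply, Submodule.Quotient.mk_eq_zero] at hc
      obtain ⟨w', hw'⟩ := hc
      obtain ⟨a', rfl⟩ := hr'.surj w'
      rw [← hj] at hw'
      have h0 : r (a - i a') = 0 := by rw [map_sub, hw', sub_self]
      obtain ⟨b, hb⟩ := (hr.ker _).mp h0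
      refine ⟨q b, ?_⟩
      have h1 : q (i a') = 0 := (hex _).mpr ⟨a', rfl⟩
      have h2 : a = i a' + p • b := by rw [← hb]; abel
      rw [h2, map_add, h1, zero_add, map_nsmul]
    · rintro ⟨b, rfl⟩
      rw [map_nsmul]
      exact ZModModule.char_nsmul_eq_zero p _

end Fermat.Agent.S56.Units

end
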