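/-
S56 / Units / A6b.   Statements FROZEN (owner helper73).
-/
import Fermat.Agent.S56.Units.A1
import Fermat.Agent.S56.Units.A4
import Fermat.Agent.S56.Units.A6

set_option autoImplicit false

noncomputable section

namespace Fermat.Agent.S56.Units

open Module Polynomial Function

variable {p : ℕ} [Fact p.Prime]

/-- **Task Units-A6b (master step).**  `j` intertwines `f'` and `f` (as `r'` is onto), so `f` preserves `range j`;
`f₃ := (range j).mapQ (range j) f _`.  `IsRed.exists_quot` gives `r''`, which intertwines `σΛ` and `f₃` (as `q` is onto);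
`IsRed.charpoly` for `r''`; `charpoly_of_exact` for `j`, `mkQ`. -/
theorem charpoly_step {A' A Λ W' W : Type} [AddCommGroup A'] [AddCommGroup A]
    [AddCommGroup Λ] [Module.Free ℤ Λ] [Module.Finite ℤ Λ]
    [AddCommGroup W'] [Module (ZMod p) W'] [Module.Finite (ZMod p) W']
    [AddCommGroup W] [Module (ZMod p) W] [Module.Finite (ZMod p) W]
    (i : A' →+ A) (q : A →+ Λ) (hq : Surjective q) (hex : ∀ a, q a = 0 ↔ ∃ a', i a' = a)
    {r' : A' →+ W'} {r : A →+ W} (hr' : IsRed p r') (hr : IsRed p r)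
    (j : W' →ₗ[ZMod p] W) (hjinj : Injective j) (hj : ∀ a', r (i a') = j (r' a'))
    (σ' : A' →+ A') (σ : A →+ A) (σΛ : Module.End ℤ Λ)
    (hσ' : ∀ a', i (σ' a') = σ (i a')) (hσΛ : ∀ a, q (σ a) = σΛ (q a))
    (f' : Module.End (ZMod p) W') (f : Module.End (ZMod p) W)
    (hf' : ∀ a', r' (σ' a') = f' (r' a')) (hf : ∀ a, r (σ a) = f (r a)) :
    f.charpoly = f'.charpoly * σΛ.charpoly.map (Int.castRingHom (ZMod p)) := by
  have hjf : ∀ w', j (f' w') = f (j w') := by
    intro w'
    obtain ⟨a', rfl⟩ := hr'.surj w'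
    rw [← hf', ← hj, hσ', hf, hj]
  have hpres : LinearMap.range j ≤ (LinearMap.range j).comap f := by
    rintro _ ⟨w', rfl⟩
    exact ⟨f' w', hjf w'⟩
  let f₃ : Module.End (ZMod p) (W ⧸ LinearMap.range j) :=
    (LinearMap.range j).mapQ (LinearMap.range j) f hpres
  obtain ⟨r'', hr'', hr''q⟩ := IsRed.exists_quot i q hq hex hr' hr j hj
  have h3 : ∀ x, r'' (σΛ x) = f₃ (r'' x) := by
    intro x
    obtain ⟨a, rfl⟩ := hq x
    rw [← hσΛ, hr''q, hr''q, hf]
    rfl
  have hc3 := hr''.charpoly σΛ f₃ h3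
  rw [← hc3]
  refine charpoly_of_exact j (LinearMap.range j).mkQ hjinj (Submodule.mkQ_surjective _) ?_
    f' f f₃ hjf (fun x => rfl)
  intro w
  rw [Submodule.mkQ_apply, Submodule.Quotient.mk_eq_zero]
  rfl

end Fermat.Agent.S56.Units

end
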