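/-
S56 / Units / A8.   Statements FROZEN (owner helper73).
-/
import Mathlib

set_option autoImplicit false

noncomputable section

namespace Fermat.Agent.S56.Units

open Module Polynomial Function

/-- **Task Units-A8.**  `σΛ (q a) := q (σ a)`; well defined since `σ` preserves `ker q`
(`QuotientAddGroup.lift` + `QuotientAddGroup.quotientKerEquivOfSurjective`, or `Function.surjInv hq`);
`AddMonoidHom.toIntLinearMap`. -/
theorem exists_end_of_surjective {A Λ : Type} [AddCommGroup A] [AddCommGroup Λ] (q : A →+ Λ)
    (hq : Surjective q) (σ : A →+ A) (hσ : ∀ a, q a = 0 → q (σ a) = 0) :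
    ∃ σΛ : Module.End ℤ Λ, ∀ a, q (σ a) = σΛ (q a) := by
  have hwd : ∀ a b, q a = q b → q (σ a) = q (σ b) := by
    intro a b hab
    have h1 : q (a - b) = 0 := by rw [map_sub, hab, sub_self]
    have h2 := hσ _ h1
    rwa [map_sub, map_sub, sub_eq_zero] at h2
  let g : Λ →+ Λ :=
    { toFun := fun l => q (σ (surjInv hq l))
      map_zero' := by
        have : q (surjInv hq (0 : Λ)) = q 0 := by rw [surjInv_eq hq, map_zero]
        rw [hwd _ _ this, map_zero, map_zero]
      map_add' := by
        intro x y
        have : q (surjInv hq (x + y)) = q (surjInv hq x + surjInv hq y) := by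
          rw [map_add, surjInv_eq hq, surjInv_eq hq, surjInv_eq hq]
        rw [hwd _ _ this, map_add, map_add] }
  refine ⟨g.toIntLinearMap, fun a => ?_⟩
  show q (σ a) = q (σ (surjInv hq (q a)))
  exact hwd _ _ (surjInv_eq hq (q a)).symm

end Fermat.Agent.S56.Units

end
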