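/-
S56 / Units / A10.   Statements FROZEN (owner helper73).
-/
import Fermat.Agent.S56.Units.A5a
import Fermat.Agent.S56.Units.A5c
import Fermat.Agent.S56.Units.A6b
import Fermat.Agent.S56.Units.A8

set_option autoImplicit false

noncomputable section

namespace Fermat.Agent.S56.Units

open Module Polynomial Function

variable {p : ℕ} [Fact p.Prime]

/-- **Task Units-A10 (infinite places step).**  `σΛ` from `exists_end_of_surjective` (`q a = 0 → a = i a' → σ a = i (σ' a')`).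
`ℓ : (Fin n → ℤ) →+ H`, `m ↦ ∑ i, (m i : ℝ) • b' i`; `ℓ (q a) = lg a` in `T → ℝ`; `H` is stable under `permOp ℝ π`
(sum over a permutation: `Equiv.sum_comp`); `γ := (permOp ℝ π).restrict _`; `ℓ (σΛ m) = γ (ℓ m)` (write `m = q a`, use `hlgσ`).
`charpoly_of_basis_map` (`b = Pi.basisFun ℤ (Fin n)`) : `γ.charpoly = σΛ.charpoly.map (Int.castRingHom ℝ)`;
`charpoly_permOp_hyperplane`, `charpoly_permOp_map ℝ`; `Polynomial.map_injective _ Int.cast_injective` gives in `ℤ[X]`
`(permOp ℤ π).charpoly = σΛ.charpoly * (X - 1)`; map to `ZMod p`; `charpoly_step`; `charpoly_permOp_map (ZMod p)`. -/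
theorem charpoly_step_log {A' A W' W T : Type} [AddCommGroup A'] [AddCommGroup A] [Fintype T]
    [Nonempty T]
    [AddCommGroup W'] [Module (ZMod p) W'] [Module.Finite (ZMod p) W']
    [AddCommGroup W] [Module (ZMod p) W] [Module.Finite (ZMod p) W]
    (i : A' →+ A) {n : ℕ} (q : A →+ (Fin n → ℤ)) (hq : Surjective q)
    (hex : ∀ a, q a = 0 ↔ ∃ a', i a' = a)
    (H : Submodule ℝ (T → ℝ)) (hH : ∀ f, f ∈ H ↔ ∑ t, f t = 0) (b' : Basis (Fin n) ℝ H)
    (lg : A →+ (T → ℝ)) (hlg : ∀ a, lg a = ∑ i, (q a i : ℝ) • (b' i : T → ℝ))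
    {r' : A' →+ W'} {r : A →+ W} (hr' : IsRed p r') (hr : IsRed p r)
    (j : W' →ₗ[ZMod p] W) (hjinj : Injective j) (hj : ∀ a', r (i a') = j (r' a'))
    (σ' : A' →+ A') (σ : A →+ A) (π : Equiv.Perm T)
    (hσ' : ∀ a', i (σ' a') = σ (i a')) (hlgσ : ∀ a, lg (σ a) = permOp ℝ π (lg a))
    (f' : Module.End (ZMod p) W') (f : Module.End (ZMod p) W)
    (hf' : ∀ a', r' (σ' a') = f' (r' a')) (hf : ∀ a, r (σ a) = f (r a)) :
    f.charpoly * (X - 1) = f'.charpoly * (permOp (ZMod p) π).charpoly := by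
  classical
  have hker : ∀ a, q a = 0 → q (σ a) = 0 := by
    intro a ha
    obtain ⟨a', rfl⟩ := (hex a).mp ha
    exact (hex _).mpr ⟨σ' a', hσ' a'⟩
  obtain ⟨σΛ, hσΛ⟩ := exists_end_of_surjective q hq σ hker
  let ℓ : (Fin n → ℤ) →+ H :=
    { toFun := fun m => ∑ i, (m i : ℝ) • b' i
      map_zero' := by simp
      map_add' := fun m m' => by
        simp only [Pi.add_apply, Int.cast_add, add_smul, Finset.sum_add_distrib] }
  have hℓ : ∀ a, ((ℓ (q a) : H) : T → ℝ) = lg a := by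
    intro a
    rw [hlg a]
    change ((∑ i, (q a i : ℝ) • b' i : H) : T → ℝ) = _
    rw [Submodule.coe_sum]
    rfl
  have hst : ∀ f ∈ H, permOp ℝ π f ∈ H := by
    intro f hf
    rw [hH] at hf ⊢
    rw [← hf]
    exact Equiv.sum_comp π.symm f
  have hℓγ : ∀ m, ℓ (σΛ m) = ((permOp ℝ π).restrict hst) (ℓ m) := by
    intro m
    obtain ⟨a, rfl⟩ := hq m
    rw [← hσΛ]
    apply Subtype.ext
    rw [hℓ, hlgσ, LinearMap.coe_restrict_apply, hℓ]
  have hb : ∀ i, ℓ (Pi.basisFun ℤ (Fin n) i) = b' i := by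
    intro i
    change (∑ j, ((Pi.basisFun ℤ (Fin n) i j : ℤ) : ℝ) • b' j) = b' i
    rw [Finset.sum_eq_single i]
    · simp
    · intro j _ hj
      simp [hj]
    · intro h
      exact absurd (Finset.mem_univ _) h
  have c1 := charpoly_of_basis_map (S := ℝ) (Pi.basisFun ℤ (Fin n)) b' ℓ hb σΛ _ hℓγ
  have c2 := charpoly_permOp_hyperplane ℝ π H hH hst
  have c3 := charpoly_permOp_map ℝ π
  have hZ : (permOp ℤ π).charpoly = σΛ.charpoly * (X - 1) := by
    apply Polynomial.map_injective (Int.castRingHom ℝ) Int.cast_injective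
    rw [← c3, c2, c1, Polynomial.map_mul, Polynomial.map_sub, Polynomial.map_X, Polynomial.map_one]
  have c4 := charpoly_step i q hq hex hr' hr j hjinj hj σ' σ σΛ hσ' hσΛ f' f hf' hf
  rw [charpoly_permOp_map (ZMod p) π, hZ, c4, Polynomial.map_mul, Polynomial.map_sub,
    Polynomial.map_X, Polynomial.map_one, mul_assoc]

end Fermat.Agent.S56.Units

end
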