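/-
S56 / Units / A7.   Statements FROZEN (owner helper73).
-/
import Fermat.Agent.S56.Units.LADefs

set_option autoImplicit false

noncomputable section

namespace Fermat.Agent.S56.Units

open Module Polynomial Function

variable {p : ℕ} [Fact p.Prime]

/-- charpoly of a scalar on a line. -/
theorem A7_charpoly_smul {K V : Type} [Field K] [AddCommGroup V] [Module K V] [Module.Finite K V]
    (h1 : finrank K V = 1) (f : Module.End K V) (a : K) (hf : ∀ v, f v = a • v) :
    f.charpoly = X - C a := by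
  let b : Basis Unit K V := Module.basisUnique Unit h1
  rw [← LinearMap.charpoly_toMatrix f b, Matrix.charpoly, Matrix.det_unique,
    Matrix.charmatrix_apply_eq, LinearMap.toMatrix_apply, hf, map_smul b.repr a]
  simp

/-- **Task Units-A7.**  `A = ⟨ξ⟩` (`IsAddCyclic`), `σ ξ = c • ξ`, hence `σ = c •` on `A`; `c • t = a.val • t` and `t` of order `p`
give `(c : ZMod p) = a`.  `W` is spanned by `r ξ`, and `f (r ξ) = r (c • ξ) = a • r ξ`; `r ξ ≠ 0`: otherwise `ξ = p • b`, so
multiplication by `p` is onto, hence injective on the finite group `A`, contradiction with `p • t = 0`, `t ≠ 0`.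
So `finrank W = 1`, `f = a • id`; charpoly via `LinearMap.charpoly_toMatrix` for the basis `{r ξ}`
(`Module.basisUnique`/`Basis.singleton`-style) or `LinearMap.charpoly` of a scalar on a 1-dimensional space. -/
theorem charpoly_cyclic {A W : Type} [AddCommGroup A] [Finite A] [IsAddCyclic A]
    [AddCommGroup W] [Module (ZMod p) W] [Module.Finite (ZMod p) W]
    {r : A →+ W} (hr : IsRed p r) (σ : A →+ A) (f : Module.End (ZMod p) W)
    (hf : ∀ x, r (σ x) = f (r x)) (t : A) (ht : t ≠ 0) (hpt : p • t = 0) (a : ZMod p)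
    (hσt : σ t = a.val • t) :
    f.charpoly = X - C a := by
  obtain ⟨ξ, hξ⟩ := IsAddCyclic.exists_generator (α := A)
  obtain ⟨c, hc⟩ := AddSubgroup.mem_zmultiples_iff.mp (hξ (σ ξ))
  have hσ : ∀ x, σ x = c • x := by
    intro x
    obtain ⟨n, rfl⟩ := AddSubgroup.mem_zmultiples_iff.mp (hξ x)
    rw [map_zsmul, ← hc, smul_comm]
  have hord : addOrderOf t = p := addOrderOf_eq_prime hpt ht
  have hca : (c : ZMod p) = a := by
    have h1 : (c - (a.val : ℤ)) • t = 0 := by
      rw [sub_smul, ← hσ, hσt, natCast_zsmul, sub_self]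
    have h2 : (p : ℤ) ∣ c - (a.val : ℤ) := by
      have h2' := addOrderOf_dvd_iff_zsmul_eq_zero.mpr h1
      rwa [hord] at h2'
    have h3 : ((c - (a.val : ℤ) : ℤ) : ZMod p) = 0 := (ZMod.intCast_zmod_eq_zero_iff_dvd _ p).mpr h2
    rw [Int.cast_sub, Int.cast_natCast, ZMod.natCast_zmod_val, sub_eq_zero] at h3
    exact h3
  have hfa : ∀ w, f w = a • w := by
    intro w
    obtain ⟨x, rfl⟩ := hr.surj w
    rw [← hf, hσ, map_zsmul, ← hca, Int.cast_smul_eq_zsmul]
  have hrξ : r ξ ≠ 0 := by
    intro h0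
    obtain ⟨b, hb⟩ := (hr.ker ξ).mp h0
    have hsurj : Function.Surjective (fun x : A => p • x) := by
      intro x
      obtain ⟨n, rfl⟩ := AddSubgroup.mem_zmultiples_iff.mp (hξ x)
      refine ⟨n • b, ?_⟩
      show p • n • b = n • ξ
      rw [hb, smul_comm]
    have hinj := Finite.injective_iff_surjective.mpr hsurj
    apply ht
    apply hinj
    show p • t = p • (0 : A)
    rw [hpt, smul_zero]
  have h1 : finrank (ZMod p) W = 1 := by
    refine finrank_eq_one (r ξ) hrξ (fun w => ?_)
    obtain ⟨x, rfl⟩ := hr.surj w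
    obtain ⟨n, rfl⟩ := AddSubgroup.mem_zmultiples_iff.mp (hξ x)
    exact ⟨(n : ZMod p), by rw [map_zsmul, Int.cast_smul_eq_zsmul]⟩
  exact A7_charpoly_smul h1 f a hfa

end Fermat.Agent.S56.Units

end
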