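/-
S56 / Units / A3.   Statements FROZEN (owner helper73).
-/
import Mathlib

set_option autoImplicit false

noncomputable section

namespace Fermat.Agent.S56.Units

open Module Polynomial Function

/-- **Task Units-A3.**  Base change to `ℚ`: `j.baseChange ℚ` is bijective (injective: `ℚ` is flat,
`Module.Flat.lTensor_preserves_injective_linearMap` / or argue with bases; surjective: `1 ⊗ y = (1/m) ⊗ (m • y)`), so
`(f.baseChange ℚ)` and `(f'.baseChange ℚ)` are conjugate (`LinearEquiv.charpoly_conj`); `LinearMap.charpoly_baseChange`;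
`Polynomial.map_injective _ (Int.cast_injective)`. -/
theorem charpoly_eq_of_commensurable {D D' : Type}
    [AddCommGroup D] [Module.Free ℤ D] [Module.Finite ℤ D]
    [AddCommGroup D'] [Module.Free ℤ D'] [Module.Finite ℤ D']
    (j : D →ₗ[ℤ] D') (hj : Injective j) (hfin : ∀ y : D', ∃ m : ℤ, m ≠ 0 ∧ m • y ∈ LinearMap.range j)
    (f : Module.End ℤ D) (f' : Module.End ℤ D') (h : ∀ x, j (f x) = f' (j x)) :
    f.charpoly = f'.charpoly := by
  have hinj : Injective (j.baseChange ℚ) := by
    rw [LinearMap.baseChange_eq_ltensor]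
    exact Module.Flat.lTensor_preserves_injective_linearMap j hj
  have hsurj : Surjective (j.baseChange ℚ) := by
    intro w
    induction w using TensorProduct.induction_on with
    | zero => exact ⟨0, map_zero _⟩
    | tmul a y =>
      obtain ⟨m, hm, x, hx⟩ := hfin y
      refine ⟨(a / m) ⊗ₜ[ℤ] x, ?_⟩
      rw [LinearMap.baseChange_tmul, hx, TensorProduct.tmul_smul, TensorProduct.smul_tmul']
      congr 1
      rw [zsmul_eq_mul]
      have : (m : ℚ) ≠ 0 := by exact_mod_cast hm
      field_simp
    | add u v hu hv =>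
      obtain ⟨u', rfl⟩ := hu
      obtain ⟨v', rfl⟩ := hv
      exact ⟨u' + v', map_add _ _ _⟩
  let e : (TensorProduct ℤ ℚ D) ≃ₗ[ℚ] (TensorProduct ℤ ℚ D') :=
    LinearEquiv.ofBijective (j.baseChange ℚ) ⟨hinj, hsurj⟩
  have hconj : e.conj (f.baseChange ℚ) = f'.baseChange ℚ := by
    apply LinearMap.ext
    intro w
    obtain ⟨u, rfl⟩ := e.surjective w
    rw [LinearEquiv.conj_apply_apply, LinearEquiv.symm_apply_apply]
    show j.baseChange ℚ (f.baseChange ℚ u) = f'.baseChange ℚ (j.baseChange ℚ u)
    induction u using TensorProduct.induction_on with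
    | zero => simp
    | tmul a x => simp only [LinearMap.baseChange_tmul, h]
    | add u v hu hv => simp only [map_add, hu, hv]
  have h1 := LinearEquiv.charpoly_conj e (f.baseChange ℚ)
  rw [hconj, LinearMap.charpoly_baseChange, LinearMap.charpoly_baseChange] at h1
  exact (Polynomial.map_injective _ (RingHom.injective_int (algebraMap ℤ ℚ)) h1).symm

end Fermat.Agent.S56.Units

end
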