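/-
S56 / Units / A9.   Statements FROZEN (owner helper73).
-/
import Fermat.Agent.S56.Units.A3
import Fermat.Agent.S56.Units.A5a
import Fermat.Agent.S56.Units.A6b

set_option autoImplicit false

noncomputable section

namespace Fermat.Agent.S56.Units

open Module Polynomial Function

variable {p : ℕ} [Fact p.Prime]

/-- **Task Units-A9 (finite places step).**  `D := AddSubgroup.toIntSubmodule o.range` (free and finite over `ℤ`: submodule of
`T → ℤ`), `q : A →+ D` the corestriction (`AddMonoidHom.rangeRestrict`), `σΛ := (permOp ℤ π).restrict _` (stable by `hoσ`).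
`charpoly_step` gives `f.charpoly = f'.charpoly * σΛ.charpoly.map _`; `charpoly_eq_of_commensurable` with `j = D.subtype`
(`hfin`) gives `σΛ.charpoly = (permOp ℤ π).charpoly`; `charpoly_permOp_map`. -/
theorem charpoly_step_perm {A' A W' W T : Type} [AddCommGroup A'] [AddCommGroup A] [Finite T]
    [AddCommGroup W'] [Module (ZMod p) W'] [Module.Finite (ZMod p) W']
    [AddCommGroup W] [Module (ZMod p) W] [Module.Finite (ZMod p) W]
    (i : A' →+ A) (o : A →+ (T → ℤ)) (hex : ∀ a, o a = 0 ↔ ∃ a', i a' = a)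
    (hfin : ∀ y : T → ℤ, ∃ m : ℤ, m ≠ 0 ∧ ∃ a, o a = m • y)
    {r' : A' →+ W'} {r : A →+ W} (hr' : IsRed p r') (hr : IsRed p r)
    (j : W' →ₗ[ZMod p] W) (hjinj : Injective j) (hj : ∀ a', r (i a') = j (r' a'))
    (σ' : A' →+ A') (σ : A →+ A) (π : Equiv.Perm T)
    (hσ' : ∀ a', i (σ' a') = σ (i a')) (hoσ : ∀ a, o (σ a) = permOp ℤ π (o a))
    (f' : Module.End (ZMod p) W') (f : Module.End (ZMod p) W)
    (hf' : ∀ a', r' (σ' a') = f' (r' a')) (hf : ∀ a, r (σ a) = f (r a)) :
    f.charpoly = f'.charpoly * (permOp (ZMod p) π).charpoly := by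
  let D : Submodule ℤ (T → ℤ) := AddSubgroup.toIntSubmodule o.range
  have hmemD : ∀ a, o a ∈ D := fun a => ⟨a, rfl⟩
  let q : A →+ D :=
    { toFun := fun a => ⟨o a, hmemD a⟩
      map_zero' := Subtype.ext (map_zero o)
      map_add' := fun a b => Subtype.ext (map_add o a b) }
  have hq : Surjective q := by
    rintro ⟨y, a, rfl⟩
    exact ⟨a, rfl⟩
  have hex' : ∀ a, q a = 0 ↔ ∃ a', i a' = a := by
    intro a
    rw [← hex a]
    exact Subtype.ext_iff
  have hst : ∀ x ∈ D, permOp ℤ π x ∈ D := by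
    rintro x ⟨a, rfl⟩
    rw [← hoσ]
    exact hmemD _
  let σΛ : Module.End ℤ D := (permOp ℤ π).restrict hst
  have hσΛ : ∀ a, q (σ a) = σΛ (q a) := fun a => Subtype.ext (hoσ a)
  have h1 := charpoly_step i q hq hex' hr' hr j hjinj hj σ' σ σΛ hσ' hσΛ f' f hf' hf
  have h2 : σΛ.charpoly = (permOp ℤ π).charpoly := by
    refine charpoly_eq_of_commensurable D.subtype D.injective_subtype ?_ σΛ (permOp ℤ π)
      (fun x => rfl)
    intro y
    obtain ⟨m, hm, a, ha⟩ := hfin y
    exact ⟨m, hm, ⟨⟨o a, hmemD a⟩, ha⟩⟩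
  rw [h1, h2, ← charpoly_permOp_map]

end Fermat.Agent.S56.Units

end
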