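/-
S56 / Units / LA : aggregator of the pure linear algebra files.
-/
import Fermat.Agent.S56.Units.A5b
import Fermat.Agent.S56.Units.A7
import Fermat.Agent.S56.Units.A9
import Fermat.Agent.S56.Units.A10
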