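/-
S56 / Units / N2 : saturated and stable subgroups of `L^×`; `img p H = H/H^p`.   Statements FROZEN (owner helper73).
-/
import Fermat.Agent.S56.Units.N1
import Fermat.Agent.S55.G.Units

set_option autoImplicit false
set_option linter.unusedSectionVars false

noncomputable section

namespace Fermat.Agent.S56.Units

open Module Polynomial Function IsDedekindDomain NumberField
open Fermat.Agent.S55 Fermat.Agent.S55.G Fermat.Agent.S55.B

variable {L : Type} [Field L] [NumberField L]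

variable {p : ℕ} [Fact p.Prime]

/-- **Task Units-N2** (whole file, all easy).  surjective: `mem_img`.  kernel: `cls_eq_zero_iff`: `x = y ^ p`, `y ∈ H` by `hsat`. -/
theorem isRed_redImg (H : Subgroup Lˣ) (hsat : ∀ y : Lˣ, y ^ p ∈ H → y ∈ H) :
    IsRed p (redImg p H) := by
  refine ⟨?_, ?_⟩
  · rintro ⟨ξ, hξ⟩
    obtain ⟨x, hx, rfl⟩ := (mem_img p).1 hξ
    exact ⟨Additive.ofMul (⟨x, hx⟩ : H), rfl⟩
  · intro a
    constructor
    · intro ha
      have h1 : cls p ((Additive.toMul a : H) : Lˣ) = 0 := congrArg Subtype.val ha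
      obtain ⟨y, hy⟩ := (cls_eq_zero_iff p _).mp h1
      have hyH : y ∈ H := hsat y (by rw [hy]; exact (Additive.toMul a : H).2)
      refine ⟨Additive.ofMul (⟨y, hyH⟩ : H), ?_⟩
      apply Additive.toMul.injective
      apply Subtype.ext
      exact hy.symm
    · rintro ⟨b, rfl⟩
      rw [map_nsmul]
      exact ZModModule.char_nsmul_eq_zero p _

/-- `B.mem_unit_iff`, `ordZ` of a power (or `G.val_eq_one_of_pow`). -/
theorem unit_sat (T : Set (Pl L)) (y : Lˣ) (h : y ^ p ∈ T.unit L) : y ∈ T.unit L := by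
  rw [B.mem_unit_iff] at h ⊢
  intro v hv
  have h1 := h v hv
  rw [ordZ_pow] at h1
  have hp : (p : ℤ) ≠ 0 := by exact_mod_cast (Fact.out : p.Prime).ne_zero
  exact (mul_eq_zero.mp h1).resolve_left hp

theorem torL_sat (y : Lˣ) (h : y ^ p ∈ torL L) : y ∈ torL L := by
  have h1 : IsOfFinOrder (y ^ p) := h
  exact (isOfFinOrder_pow.mp h1).resolve_right (Fact.out : p.Prime).ne_zero

theorem unit_mono {T T' : Set (Pl L)} (h : T ⊆ T') : T.unit L ≤ T'.unit L := by
  intro x hx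
  rw [B.mem_unit_iff] at hx ⊢
  exact fun v hv => hx v (fun hv' => hv (h hv'))

/-- a root of unity has valuation `1` everywhere (`ordZ v (x ^ n) = n * ordZ v x`). -/
theorem torL_le_unit (T : Set (Pl L)) : torL L ≤ T.unit L := by
  intro x hx
  rw [B.mem_unit_iff]
  intro v _
  have h1 : IsOfFinOrder x := hx
  obtain ⟨n, hn, hxn⟩ := isOfFinOrder_iff_pow_eq_one.mp h1
  have h2 := ordZ_pow v x n
  rw [hxn, ordZ_one] at h2
  have hn' : (n : ℤ) ≠ 0 := by exact_mod_cast hn.ne'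
  exact (mul_eq_zero.mp h2.symm).resolve_left hn'

/-- for `v ∉ T` write `v = sigPl σ v'` (`v' = (sigPl σ).symm v ∉ T`), `ordZ_sigPl`, `B.mem_unit_iff`. -/
theorem sigU_mem_unit (σ : L ≃ₐ[ℚ] L) (T : Set (Pl L)) (hT : ∀ v, sigPl σ v ∈ T ↔ v ∈ T) :
    ∀ x ∈ T.unit L, sigU σ x ∈ T.unit L := by
  intro x hx
  rw [B.mem_unit_iff] at hx ⊢
  intro v hv
  have h1 : sigPl σ ((sigPl σ).symm v) = v := Equiv.apply_symm_apply _ _
  have h2 : (sigPl σ).symm v ∉ T := by
    intro h3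
    apply hv
    rw [← h1]
    exact (hT _).mpr h3
  rw [← h1, ordZ_sigPl]
  exact hx _ h2

theorem sigU_mem_torL (σ : L ≃ₐ[ℚ] L) : ∀ x ∈ torL L, sigU σ x ∈ torL L := by
  intro x hx
  have h1 : IsOfFinOrder x := hx
  exact (sigU σ).isOfFinOrder h1

theorem empty_stable (σ : L ≃ₐ[ℚ] L) : ∀ v, sigPl σ v ∈ (∅ : Set (Pl L)) ↔ v ∈ (∅ : Set (Pl L)) :=
  fun _ => Iff.rfl

end Fermat.Agent.S56.Units

end
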