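/-
S56 / Units / N3 : the divisor map on the `T`-units.   Statements FROZEN (owner helper73).
-/
import Fermat.Agent.S56.Units.N2

set_option autoImplicit false
set_option linter.unusedSectionVars false

noncomputable section

namespace Fermat.Agent.S56.Units

open Module Polynomial Function IsDedekindDomain NumberField
open Fermat.Agent.S55 Fermat.Agent.S55.G Fermat.Agent.S55.B

variable {L : Type} [Field L] [NumberField L]

/-- **Task Units-N3** (whole file).  `B.mem_unit_iff`: `x ∈ ∅.unit ↔ ∀ v, ordZ v x = 0`; for `x ∈ T.unit` the orders outside `T` vanish. -/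
theorem ordT_eq_zero_iff (T : Set (Pl L)) (x : Additive (T.unit L)) :
    ordT T x = 0 ↔ ∃ a' : Additive ((∅ : Set (Pl L)).unit L),
      incH (unit_mono (Set.empty_subset T)) a' = x := by
  constructor
  · intro h
    have hx : ((Additive.toMul x : T.unit L) : Lˣ) ∈ (∅ : Set (Pl L)).unit L := by
      rw [B.mem_unit_iff]
      intro v _
      by_cases hv : v ∈ T
      · exact congrFun h ⟨v, hv⟩
      · exact (B.mem_unit_iff T _).1 (Additive.toMul x : T.unit L).2 v hv
    refine ⟨Additive.ofMul ⟨_, hx⟩, ?_⟩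
    apply Additive.toMul.injective
    apply Subtype.ext
    rfl
  · rintro ⟨a', rfl⟩
    funext v
    rw [ordT_apply, coe_incH]
    exact (B.mem_unit_iff ∅ _).1 (Additive.toMul a' : (∅ : Set (Pl L)).unit L).2 v.1
      (Set.notMem_empty _)

/-- `G.UnitsAux.exists_pow_generator v` (name: see `S55/G/Units.lean`) gives `x_v` with `d_v := ordZ v x_v ≠ 0` and `ordZ v' x_v = 0` for `v' ≠ v`
(so `x_v ∈ T.unit` for `v ∈ T`).  `m := ∏_v d_v`, `a := ∏_v x_v ^ ((m / d_v) * y v)` (finite product over `T`, `Fintype.ofFinite`). -/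
theorem ordT_finite_index (T : Set (Pl L)) [Finite T] (y : T → ℤ) :
    ∃ m : ℤ, m ≠ 0 ∧ ∃ a, ordT T a = m • y := by
  classical
  let := Fintype.ofFinite T
  choose x hx1 hx2 using fun v : Pl L => G.UnitsAux.exists_pow_generator L v
  have hd : ∀ v : Pl L, ordZ v (x v) ≠ 0 := fun v h => hx1 v ((ordZ_eq_zero_iff v _).1 h)
  have hd' : ∀ v v' : Pl L, v' ≠ v → ordZ v' (x v) = 0 := fun v v' h =>
    (ordZ_eq_zero_iff v' _).2 (hx2 v v' h)
  set m : ℤ := ∏ v : T, ordZ v.1 (x v.1) with hm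
  have hm0 : m ≠ 0 := Finset.prod_ne_zero_iff.2 fun v _ => hd v.1
  set a : Lˣ := ∏ v : T, x v.1 ^ ((m / ordZ v.1 (x v.1)) * y v) with ha
  have hord : ∀ w : Pl L, ordZ w a = ∑ v : T, ((m / ordZ v.1 (x v.1)) * y v) * ordZ w (x v.1) := by
    intro w
    rw [ha, ordZ_prod]
    exact Finset.sum_congr rfl fun v _ => ordZ_zpow w _ _
  have haT : a ∈ T.unit L := by
    rw [B.mem_unit_iff]
    intro w hw
    rw [hord]
    refine Finset.sum_eq_zero fun v _ => ?_
    rw [hd' v.1 w (fun h => hw (h ▸ v.2)), mul_zero]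
  refine ⟨m, hm0, Additive.ofMul ⟨a, haT⟩, ?_⟩
  funext w
  rw [ordT_apply]
  show ordZ w.1 a = m * y w
  rw [hord, Finset.sum_eq_single w]
  · have hdvd : ordZ w.1 (x w.1) ∣ m := Finset.dvd_prod_of_mem (fun v : T => ordZ v.1 (x v.1))
      (Finset.mem_univ w)
    obtain ⟨c, hc⟩ := hdvd
    rw [hc, Int.mul_ediv_cancel_left _ (hd w.1)]
    ring
  · intro v _ hv
    rw [hd' v.1 w.1 (fun h => hv (Subtype.ext h.symm)), mul_zero]
  · intro h
    exact absurd (Finset.mem_univ w) h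

/-- `ordZ v (σ x) = ordZ (σ⁻¹ v) x` by `ordZ_sigPl`. -/
theorem ordT_sig (σ : L ≃ₐ[ℚ] L) (T : Set (Pl L)) (hT : ∀ v, sigPl σ v ∈ T ↔ v ∈ T)
    (x : Additive (T.unit L)) :
    ordT T (sigH σ (T.unit L) (sigU_mem_unit σ T hT) x) = permOp ℤ (plPerm σ T hT) (ordT T x) := by
  funext v
  rw [permOp_apply, ordT_apply, ordT_apply, coe_sigH]
  have h1 : (v : Pl L) = sigPl σ ((plPerm σ T hT).symm v : T) := by
    rw [← coe_plPerm σ T hT, Equiv.apply_symm_apply]
  conv_lhs => rw [h1]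
  exact ordZ_sigPl σ _ _

end Fermat.Agent.S56.Units

end
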