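/-
S56 / Units / N4a : Dirichlet's unit theorem in the form we use (Mathlib only).   Statements FROZEN (owner helper73).
-/
import Mathlib

set_option autoImplicit false

noncomputable section

namespace Fermat.Agent.S56.Units

open Module Function NumberField NumberField.Units NumberField.Units.dirichletUnitTheorem

theorem N4a_mem (L : Type) [Field L] [NumberField L] (u : Additive (𝓞 L)ˣ) :
    logEmbedding L u ∈ unitLattice L :=
  ⟨u, trivial, rfl⟩

/-- **Task Units-N4a.**  `n := rank L`.  `b' := (basisUnitLattice L).ofZLatticeBasis ℝ (unitLattice L)` (as in Mathlib's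
`NumberField/Units/Regulator.lean`), `Basis.ofZLatticeBasis_apply`.  `q u := (basisUnitLattice L).repr ⟨logEmbedding L u, _⟩`
(equivalently `(basisModTorsion L).repr (mk u)`), as an additive map to `Fin n → ℤ` (`Basis.equivFun`).
Surjective: `logEmbedding` maps onto `unitLattice` by definition.  Kernel: `logEmbedding_eq_zero_iff`.
Last clause: `Basis.sum_equivFun`/`Basis.sum_repr` in `unitLattice L`, push through the coercion, `Int.cast_smul_eq_zsmul`.
WARNING: instance synthesis is fragile here (`Module ℤ (Additive ((𝓞 L)ˣ ⧸ torsion L))` is NOT found by `inferInstance` outside Mathlib's file,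
`unitLattice L` is a submodule for `Pi.addCommMonoid`); work with `unitLattice L`, give instances by hand
(`letI`, see `S55/G/Units.lean`, `modTorsionAddEquiv`) or use `set_option backward.isDefEq.respectTransparency.types false in`. -/
theorem exists_fund (L : Type) [Field L] [NumberField L] :
    ∃ (n : ℕ) (q : Additive (𝓞 L)ˣ →+ (Fin n → ℤ)) (b' : Basis (Fin n) ℝ (logSpace L)),
      Surjective q ∧ (∀ u, q u = 0 ↔ Additive.toMul u ∈ torsion L) ∧
      ∀ u, logEmbedding L u = ∑ i, (q u i : ℝ) • b' i := by
  classical
  let bZ := basisUnitLattice L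
  let q : Additive (𝓞 L)ˣ →+ (Fin (rank L) → ℤ) :=
    AddMonoidHom.mk' (fun u => bZ.equivFun ⟨logEmbedding L u, N4a_mem L u⟩) (by
      intro a b
      rw [← map_add]
      congr 1
      apply Subtype.ext
      exact map_add (logEmbedding L) a b)
  have hq : ∀ u, q u = bZ.equivFun ⟨logEmbedding L u, N4a_mem L u⟩ := fun u => rfl
  refine ⟨rank L, q, bZ.ofZLatticeBasis ℝ (unitLattice L), ?_, ?_, ?_⟩
  · intro f
    obtain ⟨u, -, hu⟩ := (bZ.equivFun.symm f).2
    refine ⟨u, ?_⟩
    rw [hq]
    have : (⟨logEmbedding L u, N4a_mem L u⟩ : unitLattice L) = bZ.equivFun.symm f :=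
      Subtype.ext hu
    rw [this, LinearEquiv.apply_symm_apply]
  · intro u
    rw [hq, LinearEquiv.map_eq_zero_iff, ← logEmbedding_eq_zero_iff, ofMul_toMul]
    constructor
    · intro h; exact congrArg Subtype.val h
    · intro h; exact Subtype.ext h
  · intro u
    have h1 := bZ.sum_equivFun ⟨logEmbedding L u, N4a_mem L u⟩
    have h2 : ((∑ i, q u i • bZ i : unitLattice L) : logSpace L) = logEmbedding L u :=
      congrArg (Subtype.val) h1
    simp only [Basis.ofZLatticeBasis_apply]
    rw [← h2, AddSubmonoidClass.coe_finsetSum]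
    refine Finset.sum_congr rfl fun i _ => ?_
    rw [Int.cast_smul_eq_zsmul]
    rfl

end Fermat.Agent.S56.Units

end
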