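/-
S56 / Units / N4b : Dirichlet's unit theorem on the hyperplane, for `∅.unit L ≤ L^×`.   Statements FROZEN (owner helper73).
-/
import Fermat.Agent.S56.Units.N2
import Fermat.Agent.S56.Units.N4a

set_option autoImplicit false
set_option linter.unusedSectionVars false

noncomputable section

namespace Fermat.Agent.S56.Units

open Module Polynomial Function IsDedekindDomain NumberField
open Fermat.Agent.S55 Fermat.Agent.S55.G Fermat.Agent.S55.B

variable {L : Type} [Field L] [NumberField L]

open NumberField.Units NumberField.Units.dirichletUnitTheorem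

theorem N4b_coe_unitsEquiv (u : (𝓞 L)ˣ) :
    (((UnitsAux.unitsEquiv L u : (∅ : Set (Pl L)).unit L) : Lˣ) : L) = ((u : 𝓞 L) : L) := by
  rfl

open scoped Classical in
/-- extension of a vector of `logSpace L` to the hyperplane. -/
def N4b_extFun (g : logSpace L) : InfinitePlace L → ℝ :=
  fun w => if h : w = w₀ then - ∑ w', g w' else g ⟨w, h⟩

open scoped Classical in
theorem N4b_extFun_mem (g : logSpace L) : N4b_extFun g ∈ Hyp L := by
  rw [mem_Hyp, Fintype.sum_eq_add_sum_subtype_ne _ w₀]
  have h1 : N4b_extFun g w₀ = - ∑ w', g w' := by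
    simp [N4b_extFun]
  have h2 : ∀ w : {w : InfinitePlace L // w ≠ w₀}, N4b_extFun g w.1 = g w := by
    intro w
    simp [N4b_extFun, w.2]
  rw [h1, Finset.sum_congr rfl fun w _ => h2 w]
  simp

open scoped Classical in
/-- the extension map, linear. -/
def N4b_ext : logSpace L →ₗ[ℝ] Hyp L where
  toFun g := ⟨N4b_extFun g, N4b_extFun_mem g⟩
  map_add' g g' := by
    apply Subtype.ext
    funext w
    by_cases h : w = w₀
    · simp [N4b_extFun, h, Finset.sum_add_distrib]
      ring
    · simp [N4b_extFun, h]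
  map_smul' c g := by
    apply Subtype.ext
    funext w
    by_cases h : w = w₀
    · simp [N4b_extFun, h, Finset.mul_sum]
    · simp [N4b_extFun, h]

open scoped Classical in
theorem N4b_ext_bijective : Bijective (N4b_ext (L := L)) := by
  constructor
  · intro g g' h
    funext w
    have := congrFun (congrArg Subtype.val h) w.1
    simpa [N4b_ext, N4b_extFun, w.2] using this
  · rintro ⟨f, hf⟩
    refine ⟨fun w => f w.1, Subtype.ext (funext fun w => ?_)⟩
    rw [mem_Hyp, Fintype.sum_eq_add_sum_subtype_ne _ w₀] at hf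
    by_cases h : w = w₀
    · subst h
      simp only [N4b_ext, LinearMap.coe_mk, AddHom.coe_mk, N4b_extFun, dite_true]
      linarith
    · simp [N4b_ext, N4b_extFun, h]

open scoped Classical in
theorem N4b_ext_logEmbedding (u : (𝓞 L)ˣ) (x : Lˣ) (hx : (x : L) = ((u : 𝓞 L) : L)) :
    ((N4b_ext (logEmbedding L (Additive.ofMul u)) : Hyp L) : InfinitePlace L → ℝ)
      = logL L (Additive.ofMul x) := by
  funext w
  rw [logL_apply, toMul_ofMul, hx]
  by_cases h : w = w₀
  · subst h
    simp only [N4b_ext, LinearMap.coe_mk, AddHom.coe_mk, N4b_extFun, dite_true]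
    rw [sum_logEmbedding_component]
    ring
  · simp [N4b_ext, N4b_extFun, h]

/-- **Task Units-N4b.**  Transport `exists_fund`.
(1) `G.UnitsAux.unitsEquiv L : (𝓞 L)ˣ ≃* (∅ : Set (Pl L)).unit L` (`S55/G/Units.lean`; prove/locate `((unitsEquiv L u : _) : Lˣ) : L) = u`);
`q' := q ∘ unitsEquiv.symm`.  torsion: `u ∈ torsion L ↔ IsOfFinOrder u ↔ IsOfFinOrder (image in Lˣ)` (injective hom: `MonoidHom.isOfFinOrder`, `isOfFinOrder_iff_pow_eq_one`).
(2) `res : Hyp L ≃ₗ[ℝ] logSpace L`, restriction to `w ≠ w₀`; inverse: extend by `- ∑` at `w₀`.   `b'' := b'.map res.symm`.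
(3) for a unit `u`: `logL L u ∈ Hyp L` and `res (logL L u) = logEmbedding L u`: `logEmbedding_component`, `sum_logEmbedding_component`
(`∑_{w ≠ w₀} = - mult w₀ * log (w₀ u)`), `Fintype.sum_eq_add_sum_subtype_ne`-style splitting of `∑ w`. -/
theorem exists_fund' (L : Type) [Field L] [NumberField L] :
    ∃ (n : ℕ) (q : Additive ((∅ : Set (Pl L)).unit L) →+ (Fin n → ℤ))
      (b' : Basis (Fin n) ℝ (Hyp L)),
      Surjective q ∧
      (∀ u, q u = 0 ↔ ∃ a' : Additive (torL L), incH (torL_le_unit ∅) a' = u) ∧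
      ∀ u, logL L (Additive.ofMul ((Additive.toMul u : (∅ : Set (Pl L)).unit L) : Lˣ)) =
        ∑ i, (q u i : ℝ) • (b' i : InfinitePlace L → ℝ) := by
  obtain ⟨n, q, b', hsurj, hker, hlog⟩ := exists_fund L
  let E := UnitsAux.unitsEquiv L
  let q' : Additive ((∅ : Set (Pl L)).unit L) →+ (Fin n → ℤ) :=
    q.comp (MonoidHom.toAdditive E.symm.toMonoidHom)
  have hq' : ∀ u, q' u = q (Additive.ofMul (E.symm (Additive.toMul u))) := fun u => rfl
  refine ⟨n, q', b'.map (LinearEquiv.ofBijective N4b_ext N4b_ext_bijective), ?_, ?_, ?_⟩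
  · intro f
    obtain ⟨u, hu⟩ := hsurj f
    refine ⟨Additive.ofMul (E (Additive.toMul u)), ?_⟩
    rw [hq', toMul_ofMul, MulEquiv.symm_apply_apply, ofMul_toMul, hu]
  · intro u
    rw [hq', hker, toMul_ofMul]
    have h1 : E.symm (Additive.toMul u) ∈ torsion L ↔
        ((Additive.toMul u : (∅ : Set (Pl L)).unit L) : Lˣ) ∈ torL L := by
      rw [torsion, torL, CommGroup.mem_torsion, CommGroup.mem_torsion]
      have e1 := Function.Injective.isOfFinOrder_iff (f := E.symm.toMonoidHom) E.symm.injective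
        (x := Additive.toMul u)
      have e2 := Function.Injective.isOfFinOrder_iff
        (f := ((∅ : Set (Pl L)).unit L).subtype) (Subgroup.subtype_injective _)
        (x := Additive.toMul u)
      exact e1.trans e2.symm
    rw [h1]
    constructor
    · intro h
      exact ⟨Additive.ofMul ⟨_, h⟩, rfl⟩
    · rintro ⟨a', rfl⟩
      exact (Additive.toMul a').2
  · intro u
    have h1 := N4b_ext_logEmbedding (E.symm (Additive.toMul u))
      ((Additive.toMul u : (∅ : Set (Pl L)).unit L) : Lˣ) (by
        rw [← N4b_coe_unitsEquiv, MulEquiv.apply_symm_apply])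
    rw [← h1, hlog, map_sum, AddSubmonoidClass.coe_finsetSum]
    refine Finset.sum_congr rfl fun i _ => ?_
    rw [map_smul]
    rfl

end Fermat.Agent.S56.Units

end
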