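/-
S56 / Units / N4c : equivariance of the logarithmic vector.   Statements FROZEN (owner helper73).
-/
import Fermat.Agent.S56.Units.Defs

set_option autoImplicit false
set_option linter.unusedSectionVars false

noncomputable section

namespace Fermat.Agent.S56.Units

open Module Polynomial Function IsDedekindDomain NumberField
open Fermat.Agent.S55 Fermat.Agent.S55.G Fermat.Agent.S55.B

variable {L : Type} [Field L] [NumberField L]

/-- **Task Units-N4c.**  At `w`: RHS `= mult (σ⁻¹ • w) * log ((σ⁻¹ • w) x)`, `(infPerm σ).symm w = σ⁻¹ • w`, `InfinitePlace.smul_apply`: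
`(σ⁻¹ • w) x = w (σ x)`; `mult (σ⁻¹ • w) = mult w` from `InfinitePlace.isReal_smul_iff` (unfold `InfinitePlace.mult`). -/
theorem logL_sig (σ : L ≃ₐ[ℚ] L) (x : Additive Lˣ) :
    logL L (Additive.ofMul (sigU σ (Additive.toMul x))) = permOp ℝ (infPerm σ) (logL L x) := by
  funext w
  rw [permOp_apply, logL_apply, logL_apply]
  have h1 : (infPerm σ).symm w = σ⁻¹ • w := rfl
  have h2 : (σ⁻¹ • w) ((Additive.toMul x : Lˣ) : L) = w (σ ((Additive.toMul x : Lˣ) : L)) := by
    rw [InfinitePlace.smul_apply]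
    rfl
  have h3 : (σ⁻¹ • w).mult = w.mult := by
    have h4 : (σ⁻¹ • w).IsReal ↔ w.IsReal := InfinitePlace.isReal_smul_iff
    unfold InfinitePlace.mult
    by_cases hw : w.IsReal
    · rw [if_pos hw, if_pos (h4.mpr hw)]
    · rw [if_neg hw, if_neg (fun h => hw (h4.mp h))]
  rw [h1, h2, h3]
  rfl

end Fermat.Agent.S56.Units

end
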