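/-
S56 / Units / N5 : the roots of unity.   Statements FROZEN (owner helper73).
-/
import Fermat.Agent.S56.Units.N2
import Fermat.Agent.S56.Units.A7

set_option autoImplicit false
set_option linter.unusedSectionVars false

noncomputable section

namespace Fermat.Agent.S56.Units

open Module Polynomial Function IsDedekindDomain NumberField
open Fermat.Agent.S55 Fermat.Agent.S55.G Fermat.Agent.S55.B

variable {L : Type} [Field L] [NumberField L]

variable {p : ℕ} [Fact p.Prime]

/-- **Task Units-N5** (whole file).  `torL L ≃* NumberField.Units.torsion L` (a root of unity is integral; or: `torL L ≤ ∅.unit L ≃ (𝓞 L)ˣ` by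
`torL_le_unit`, `G.UnitsAux.unitsEquiv`), which is finite (Mathlib instance).  Alternative: the roots of unity of a number field have bounded order. -/
theorem finite_torL : Finite (torL L) := by
  have hfin := NumberField.Embeddings.finite_of_norm_le L ℂ 1
  have : Finite {x : L | IsIntegral ℤ x ∧ ∀ φ : L →+* ℂ, ‖φ x‖ ≤ 1} := hfin.to_subtype
  refine Finite.of_injective (fun x : torL L =>
    (⟨((x : Lˣ) : L), ?_⟩ : {x : L | IsIntegral ℤ x ∧ ∀ φ : L →+* ℂ, ‖φ x‖ ≤ 1})) ?_
  · have h1 : IsOfFinOrder (x : Lˣ) := x.2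
    obtain ⟨n, hn, hxn⟩ := isOfFinOrder_iff_pow_eq_one.mp h1
    have hx : ((x : Lˣ) : L) ^ n = 1 := by rw [← Units.val_pow_eq_pow_val, hxn, Units.val_one]
    refine ⟨⟨X ^ n - C 1, monic_X_pow_sub_C 1 hn.ne', by simp [hx]⟩, fun φ => ?_⟩
    have h2 : (φ ((x : Lˣ) : L)) ^ n = 1 := by rw [← map_pow, hx, map_one]
    exact (Complex.norm_eq_one_of_pow_eq_one h2 hn.ne').le
  · intro x y h
    exact Subtype.ext (Units.ext (congrArg Subtype.val h))

/-- a finite subgroup of the units of a field is cyclic (`isCyclic_of_subgroup_isDomain` / `subgroup_units_cyclic`). -/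
theorem isCyclic_torL : IsCyclic (torL L) := by
  have := finite_torL (L := L)
  exact isCyclic_subgroup_units (torL L)

/-- `charpoly_cyclic` with `A = Additive (torL L)`, `r = redImg p (torL L)` (`isRed_redImg`, `torL_sat`), `σ = sigH ..`,
`t = ζ` (as an element of `torL L`), `redImg_sigH`. -/
theorem charpoly_sigImg_torL (σ : L ≃ₐ[ℚ] L) (ζ : L) (hζ : IsPrimitiveRoot ζ p) (a : ZMod p)
    (ha : σ ζ = ζ ^ a.val) [Module.Finite (ZMod p) (img p (torL L))] :
    (sigImg p σ (torL L) (sigU_mem_torL σ)).charpoly = X - C a := by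
  have hp : p.Prime := Fact.out
  have := finite_torL (L := L)
  have := isCyclic_torL (L := L)
  have hmem : Units.mk0 ζ (hζ.ne_zero hp.ne_zero) ∈ torL L := by
    refine isOfFinOrder_iff_pow_eq_one.2 ⟨p, hp.pos, Units.ext ?_⟩
    rw [Units.val_pow_eq_pow_val, Units.val_mk0, hζ.pow_eq_one, Units.val_one]
  refine charpoly_cyclic (A := Additive (torL L)) (isRed_redImg (torL L) torL_sat)
    (sigH σ (torL L) (sigU_mem_torL σ)) _ (redImg_sigH p σ (torL L) (sigU_mem_torL σ))
    (Additive.ofMul (⟨Units.mk0 ζ (hζ.ne_zero hp.ne_zero), hmem⟩ : torL L)) ?_ ?_ a ?_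
  · intro h
    have h1 : (⟨Units.mk0 ζ (hζ.ne_zero hp.ne_zero), hmem⟩ : torL L) = 1 := h
    have h2 : ζ = 1 := congrArg (fun x : torL L => ((x : Lˣ) : L)) h1
    exact hζ.ne_one hp.one_lt h2
  · apply Additive.toMul.injective
    apply Subtype.ext
    apply Units.ext
    exact hζ.pow_eq_one
  · apply Additive.toMul.injective
    apply Subtype.ext
    apply Units.ext
    exact ha

end Fermat.Agent.S56.Units

end
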