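/-
S56 / Units / N6 : (UNITS) for a number field with an automorphism.   Statements FROZEN (owner helper73).
-/
import Fermat.Agent.S56.Units.LA
import Fermat.Agent.S56.Units.N3
import Fermat.Agent.S56.Units.N4b
import Fermat.Agent.S56.Units.N4c
import Fermat.Agent.S56.Units.N5

set_option autoImplicit false
set_option linter.unusedSectionVars false

noncomputable section

namespace Fermat.Agent.S56.Units

open Module Polynomial Function IsDedekindDomain NumberField
open Fermat.Agent.S55 Fermat.Agent.S55.G Fermat.Agent.S55.B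

variable {L : Type} [Field L] [NumberField L]

variable {p : ℕ} [Fact p.Prime]

/-- **Task Units-N6a.**  `charpoly_step_perm` with `A' = Additive (∅.unit L)`, `A = Additive (T.unit L)`, `i = incH _`, `o = ordT T`
(`ordT_eq_zero_iff`, `ordT_finite_index`, `ordT_sig`), `r' = redImg p _`, `r = redImg p _` (`isRed_redImg`, `unit_sat`),
`j = Submodule.inclusion (img_mono p _)`, `σ' = sigH ..`, `σ = sigH ..`, `f' f = sigImg ..` (`redImg_sigH`). -/
theorem charpoly_unit_step (σ : L ≃ₐ[ℚ] L) (T : Set (Pl L)) [Finite T]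
    (hT : ∀ v, sigPl σ v ∈ T ↔ v ∈ T) [Module.Finite (ZMod p) (img p (T.unit L))]
    [Module.Finite (ZMod p) (img p ((∅ : Set (Pl L)).unit L))] :
    (sigImg p σ (T.unit L) (sigU_mem_unit σ T hT)).charpoly =
      (sigImg p σ ((∅ : Set (Pl L)).unit L) (sigU_mem_unit σ ∅ (empty_stable σ))).charpoly *
        (permOp (ZMod p) (plPerm σ T hT)).charpoly := by
  exact charpoly_step_perm (p := p)
    (incH (unit_mono (Set.empty_subset T))) (ordT T) (ordT_eq_zero_iff T) (ordT_finite_index T)
    (isRed_redImg ((∅ : Set (Pl L)).unit L) (unit_sat ∅)) (isRed_redImg (T.unit L) (unit_sat T))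
    (Submodule.inclusion (img_mono p (unit_mono (Set.empty_subset T))))
    (Submodule.inclusion_injective _) (fun _ => rfl)
    (sigH σ ((∅ : Set (Pl L)).unit L) (sigU_mem_unit σ ∅ (empty_stable σ)))
    (sigH σ (T.unit L) (sigU_mem_unit σ T hT)) (plPerm σ T hT) (fun _ => rfl) (ordT_sig σ T hT)
    (sigImg p σ ((∅ : Set (Pl L)).unit L) (sigU_mem_unit σ ∅ (empty_stable σ)))
    (sigImg p σ (T.unit L) (sigU_mem_unit σ T hT))
    (redImg_sigH p σ _ _) (redImg_sigH p σ _ _)

/-- **Task Units-N6b.**  `charpoly_step_log` with `A' = Additive (torL L)`, `A = Additive (∅.unit L)`, `T = InfinitePlace L`, `H = Hyp L` (`mem_Hyp`),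
`q, b'` from `exists_fund'`, `lg u = logL L (ofMul (u : Lˣ))` (as an additive map: `(logL L).comp (MonoidHom.toAdditive (Subgroup.subtype _))`), `logL_sig`. -/
theorem charpoly_empty_step (σ : L ≃ₐ[ℚ] L)
    [Module.Finite (ZMod p) (img p ((∅ : Set (Pl L)).unit L))]
    [Module.Finite (ZMod p) (img p (torL L))] :
    (sigImg p σ ((∅ : Set (Pl L)).unit L) (sigU_mem_unit σ ∅ (empty_stable σ))).charpoly * (X - 1) =
      (sigImg p σ (torL L) (sigU_mem_torL σ)).charpoly *
        (permOp (ZMod p) (infPerm σ)).charpoly := by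
  obtain ⟨n, q, b', hq, hex, hlg⟩ := exists_fund' L
  exact charpoly_step_log (p := p)
    (incH (torL_le_unit (∅ : Set (Pl L)))) q hq hex (Hyp L) mem_Hyp b'
    ((logL L).comp (MonoidHom.toAdditive (Subgroup.subtype ((∅ : Set (Pl L)).unit L)))) hlg
    (isRed_redImg (torL L) torL_sat) (isRed_redImg ((∅ : Set (Pl L)).unit L) (unit_sat ∅))
    (Submodule.inclusion (img_mono p (torL_le_unit (∅ : Set (Pl L)))))
    (Submodule.inclusion_injective _) (fun _ => rfl)
    (sigH σ (torL L) (sigU_mem_torL σ))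
    (sigH σ ((∅ : Set (Pl L)).unit L) (sigU_mem_unit σ ∅ (empty_stable σ))) (infPerm σ)
    (fun _ => rfl)
    (fun a => logL_sig σ (Additive.ofMul ((Additive.toMul a : (∅ : Set (Pl L)).unit L) : Lˣ)))
    (sigImg p σ (torL L) (sigU_mem_torL σ))
    (sigImg p σ ((∅ : Set (Pl L)).unit L) (sigU_mem_unit σ ∅ (empty_stable σ)))
    (redImg_sigH p σ _ _) (redImg_sigH p σ _ _)

/-- **(UNITS)** for `(L, σ)`.  **Task Units-N6c.**  The two smaller spaces are finite dimensional as subspaces of `img p (T.unit L)`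
(`Submodule.finiteDimensional_of_le (img_mono p _)`); combine the two steps and `charpoly_sigImg_torL`; `ring`. -/
theorem units_charpoly (σ : L ≃ₐ[ℚ] L) (T : Set (Pl L)) [Finite T]
    (hT : ∀ v, sigPl σ v ∈ T ↔ v ∈ T) [Module.Finite (ZMod p) (img p (T.unit L))]
    (ζ : L) (hζ : IsPrimitiveRoot ζ p) (a : ZMod p) (ha : σ ζ = ζ ^ a.val) :
    (sigImg p σ (T.unit L) (sigU_mem_unit σ T hT)).charpoly * (X - 1) =
      (X - C a) * (permOp (ZMod p) (plPerm σ T hT)).charpoly *
        (permOp (ZMod p) (infPerm σ)).charpoly := by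
  have h1 : Module.Finite (ZMod p) (img p ((∅ : Set (Pl L)).unit L)) :=
    Submodule.finiteDimensional_of_le (img_mono p (unit_mono (Set.empty_subset T)))
  have h2 : Module.Finite (ZMod p) (img p (torL L)) :=
    Submodule.finiteDimensional_of_le (img_mono p (torL_le_unit T))
  rw [charpoly_unit_step σ T hT, mul_right_comm, charpoly_empty_step σ,
    charpoly_sigImg_torL σ ζ hζ a ha]
  ring

end Fermat.Agent.S56.Units

end
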