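/-
S56 / Units / BR4 : final assembly = helper98's (UNITS).   Statements FROZEN (owner helper73).
-/
import Fermat.Agent.S56.Units.N6
import Fermat.Agent.S56.Units.BR0
import Fermat.Agent.S56.Units.BR2
import Fermat.Agent.S56.Units.BR3b

set_option autoImplicit false
set_option linter.unusedSectionVars false

noncomputable section

namespace Fermat.Agent.S56.Units

open Module Polynomial Function IsDedekindDomain NumberField
open Fermat.Agent.S55 Fermat.Agent.S55.G Fermat.Agent.S55.B Fermat.Agent.S55.Places ExtCitation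

variable {L : Type} [Field L] [NumberField L]

variable {p : ℕ} [Fact p.Prime]

/-- **Task Units-BR4.**  `σ := toAlg s`.  `ζ` from `B.exists_zeta_of_le ι h.hω`; `a := cycloChar p g`; `σ ζ = ζ ^ a.val`: apply the injective `ι`, `hs`, `cycloChar_spec p g t`
(`t : Qbarˣ` with value `ι ζ`).  `T = sigImg p σ ((SK Sg ι).unit L) _` (`LinearMap.ext`, `Subtype.ext`, `hT`; `KPmap p s = sigKP p σ` by `rfl` or on `cls`; `EE p L T = img p (T.unit L)` by `rfl`).
`Units.units_charpoly`, `charpoly_plPerm_SK`; for each `q`: `exists_equiv_PlQ` + `charpoly_permOp_congr` + `charpoly_permOp_H0`; `exists_equiv_inf` likewise. -/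
theorem units_charpoly_bridge (Sg : Finset Nat.Primes)
    (ι : L →+* Qbar) (h : B.Setup p Sg ι) [(G.fixG ι).Normal] [Finite (GQ ⧸ G.fixG ι)]
    (g : GQ) (s : L ≃+* L) (hs : ∀ x, ι (s x) = g (ι x))
    [FiniteDimensional (ZMod p) ↥(G.EE p L (B.SK Sg ι))]
    (T : ↥(G.EE p L (B.SK Sg ι)) →ₗ[ZMod p] ↥(G.EE p L (B.SK Sg ι)))
    (hT : ∀ ξ, ((T ξ : ↥(G.EE p L (B.SK Sg ι))) : G.KP p L) = Euler.KPmap p s ξ) :
    T.charpoly * (X - 1) =
      (X - C ((cycloChar p g : (ZMod p)ˣ) : ZMod p)) *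
        (∏ q ∈ Sg, (permE p (G.fixG ι) (DqP q) g).charpoly) *
        (permE p (G.fixG ι) (Subgroup.zpowers complexConjugation) g).charpoly := by
  have hs' : ∀ x, ι (toAlg s x) = g (ι x) := hs
  obtain ⟨ζ, hζ⟩ := B.exists_zeta_of_le ι h.hω
  have hζ1 : ι ζ ^ p = 1 := by rw [← map_pow, hζ.pow_eq_one, map_one]
  have hu : IsUnit (ι ζ) := IsUnit.of_pow_eq_one hζ1 (Fact.out : p.Prime).ne_zero
  obtain ⟨t, ht⟩ := hu
  have ha : toAlg s ζ = ζ ^ ((cycloChar p g : (ZMod p)ˣ) : ZMod p).val := by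
    apply ι.injective
    rw [hs', map_pow, ← ht]
    exact cycloChar_spec p g t (by ext; rw [Units.val_pow_eq_pow_val, ht, hζ1, Units.val_one])
  have hfin : Module.Finite (ZMod p) (img p ((SK Sg ι).unit L)) :=
    inferInstanceAs (FiniteDimensional (ZMod p) ↥(G.EE p L (B.SK Sg ι)))
  have hTeq : T = sigImg p (toAlg s) ((SK Sg ι).unit L)
      (sigU_mem_unit (toAlg s) (SK Sg ι) (SK_stable ι (toAlg s) g hs' Sg)) := by
    apply LinearMap.ext
    intro ξ
    apply Subtype.ext
    rw [hT]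
    rfl
  have hmain := units_charpoly (p := p) (toAlg s) (SK Sg ι) (SK_stable ι (toAlg s) g hs' Sg) ζ hζ
    ((cycloChar p g : (ZMod p)ˣ) : ZMod p) ha
  rw [charpoly_plPerm_SK ι (toAlg s) g hs' Sg] at hmain
  have hq : ∀ q : Nat.Primes,
      (permOp (ZMod p) (plPerm (toAlg s) (PlQ ι q) (PlQ_stable ι (toAlg s) g hs' q))).charpoly =
        (permE p (G.fixG ι) (DqP q) g).charpoly := by
    intro q
    obtain ⟨e, he⟩ := exists_equiv_PlQ ι (toAlg s) g hs' q
    have : Finite (Om (fixG ι) (DqP q)) := Finite.of_equiv _ e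
    rw [charpoly_permOp_H0]
    exact charpoly_permOp_congr (ZMod p) _ _ e he
  have hinf : (permOp (ZMod p) (infPerm (toAlg s))).charpoly =
      (permE p (G.fixG ι) (Subgroup.zpowers complexConjugation) g).charpoly := by
    obtain ⟨e, he⟩ := exists_equiv_inf ι (toAlg s) g hs'
    have : Finite (Om (fixG ι) (Subgroup.zpowers complexConjugation)) := Finite.of_equiv _ e
    rw [charpoly_permOp_H0]
    exact charpoly_permOp_congr (ZMod p) _ _ e he
  rw [hinf, Finset.prod_congr rfl (fun q _ => hq q)] at hmain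
  rw [hTeq]
  exact hmain

end Fermat.Agent.S56.Units

end
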